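import Fermat.Agent.DedekindHadamard.Stark
import Fermat.Agent.DedekindPrimeIdeals.Dirichlet
import Fermat.Agent.ExplicitFormula.Digamma

/-!
# `ζ_K'/ζ_K` on `re s > -1`, uniformly in the field

`-ζ_K'/ζ_K s = 1/(s - 1) - ξ'/ξ s + log |d| / 2 + (digammas at s/2 + 1, s + 1) - (r₁ + r₂ - 1)/s`,
and `ξ'/ξ s = O (height (im s) / δ)` at distance `δ` from the zeros, by the partial fractions
against `2 + i t`.
-/

set_option autoImplicit false
set_option linter.style.haveILetI false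

noncomputable section

universe u

open NumberField InfinitePlace Module Complex Filter Topology Set
open FA.HeckeBS FA.HeckeFE FA.DedekindZF FA.DedekindZeroCount FA.DedekindHadamard
open FA.DedekindPIT (mangoldtK mangoldtK_le mangoldtK_nonneg LSeries_mangoldtK)
open scoped Real Classical ArithmeticFunction.vonMangoldt

namespace FA.DedekindExplicit

variable (K : Type u) [Field K] [NumberField K]

/-- `r₁ + r₂ - 1`. -/
def unitCount : ℝ := (nrRealPlaces K : ℝ) + nrComplexPlaces K - 1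

/-- `log |d| / 2` and the infinite places, without their poles at `0`. -/
def regPart (s : ℂ) : ℂ :=
  (discLog K / 2 : ℝ) + ((nrRealPlaces K : ℂ) * ((digamma (s / 2 + 1) - Real.log π) / 2) +
    (nrComplexPlaces K : ℂ) * (digamma (s + 1) - Real.log (2 * π)))

/-- `-ζ_K'/ζ_K`, on the whole strip. -/
def negZeta (s : ℂ) : ℂ := (s - 1)⁻¹ - xiLog K s + regPart K s - unitCount K * s⁻¹

theorem abs_unitCount_le : |unitCount K| ≤ finrank ℚ K := by
  have h := card_add_two_mul_card_eq_rank K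
  have hn : (1 : ℝ) ≤ finrank ℚ K := Nat.one_le_cast.2 finrank_pos
  have h' : (nrRealPlaces K : ℝ) + 2 * nrComplexPlaces K = finrank ℚ K := by exact_mod_cast h
  have := (Nat.cast_nonneg (nrComplexPlaces K) : (0 : ℝ) ≤ _)
  have := (Nat.cast_nonneg (nrRealPlaces K) : (0 : ℝ) ≤ _)
  rw [unitCount, abs_le]
  constructor <;> linarith

theorem negZeta_eq_LSeries {s : ℂ} (hs : 1 < s.re) :
    negZeta K s = LSeries (fun n => (mangoldtK K n : ℂ)) s := by
  have h0 : s ≠ 0 := fun h => by rw [h] at hs; simp at hs; linarith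
  have r1 := Complex.digamma_apply_add_one (s / 2) fun m h => by
    have := congrArg Complex.re h
    simp at this
    linarith [(Nat.cast_nonneg m : (0 : ℝ) ≤ m)]
  have r2 := Complex.digamma_apply_add_one s fun m h => by
    have := congrArg Complex.re h
    simp at this
    linarith [(Nat.cast_nonneg m : (0 : ℝ) ≤ m)]
  rw [(LSeries_mangoldtK (differentiable_cleared K) (fun z hz => cleared_spec K hz) hs).2, negZeta,
    regPart, xiLog_formula K (by linarith) (cleared_ne_zero_right K hs.le), archTerm, r1, r2,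
    unitCount]
  push_cast
  field_simp
  ring

theorem log_add_six_le (t : ℝ) : Real.log (|t| + 6) ≤ 2 * Real.log (|t| + 3) := by
  rw [show 2 * Real.log (|t| + 3) = Real.log ((|t| + 3) ^ 2) by rw [Real.log_pow]; norm_num]
  exact Real.log_le_log (by positivity) (by nlinarith [abs_nonneg t])

theorem norm_digamma_shift_le {z : ℂ} {t : ℝ} (h1 : 1 / 4 ≤ z.re) (h2 : z.re ≤ 4)
    (h3 : |z.im| ≤ |t|) : ‖digamma z‖ ≤ 15 * Real.log (|t| + 3) := by
  rw [Complex.digamma_def, logDeriv_apply]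
  refine (FA.ExplicitFormula.norm_digamma_le h1).trans ?_
  have hn : ‖z‖ + 2 ≤ |t| + 6 := by
    have := norm_le_abs_re_add_abs_im z
    rw [abs_of_nonneg (show 0 ≤ z.re by linarith)] at this
    linarith
  have h4 := (Real.log_le_log (by positivity) hn).trans (log_add_six_le t)
  have h5 := one_le_log t
  linarith

theorem norm_regPart_le {s : ℂ} (h1 : -(1 / 2) ≤ s.re) (h2 : s.re ≤ 2) :
    ‖regPart K s‖ ≤ 22 * height K s.im := by
  obtain ⟨L, hL⟩ : ∃ L, L = Real.log (|s.im| + 3) := ⟨_, rfl⟩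
  have hL1 : 1 ≤ L := hL ▸ one_le_log _
  have hpi : ∀ c : ℝ, 1 ≤ c → c ≤ 8 → ‖((Real.log c : ℝ) : ℂ)‖ ≤ 7 := fun c hc hc8 => by
    rw [Complex.norm_real, Real.norm_of_nonneg (Real.log_nonneg hc)]
    linarith [Real.log_le_sub_one_of_pos (show 0 < c by linarith)]
  have a1 : ‖digamma (s / 2 + 1)‖ ≤ 15 * L := by
    rw [hL]
    refine norm_digamma_shift_le (by simp; linarith) (by simp; linarith) ?_
    simp [abs_div]
  have a2 : ‖digamma (s + 1)‖ ≤ 15 * L := by
    rw [hL]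
    exact norm_digamma_shift_le (by simp; linarith) (by simp; linarith) (by simp)
  have b1 : ‖(digamma (s / 2 + 1) - Real.log π) / 2‖ ≤ 22 * L := by
    rw [norm_div, Complex.norm_two]
    linarith [(norm_sub_le (digamma (s / 2 + 1)) ((Real.log π : ℝ) : ℂ)),
      hpi π (by linarith [Real.pi_gt_three]) (by linarith [Real.pi_le_four])]
  have b2 : ‖digamma (s + 1) - Real.log (2 * π)‖ ≤ 22 * L := by
    linarith [(norm_sub_le (digamma (s + 1)) ((Real.log (2 * π) : ℝ) : ℂ)),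
      hpi (2 * π) (by linarith [Real.pi_gt_three]) (by linarith [Real.pi_le_four])]
  have hd := discLog_nonneg K
  have hr : (nrRealPlaces K : ℝ) + nrComplexPlaces K ≤ finrank ℚ K := by
    have h' : (nrRealPlaces K : ℝ) + 2 * nrComplexPlaces K = finrank ℚ K := by
      exact_mod_cast card_add_two_mul_card_eq_rank K
    linarith [(Nat.cast_nonneg (nrComplexPlaces K) : (0 : ℝ) ≤ _)]
  refine (norm_add_le _ _).trans ((add_le_add le_rfl (norm_add_le _ _)).trans ?_)
  rw [Complex.norm_real, Real.norm_of_nonneg (by linarith), norm_mul, norm_mul,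
    Complex.norm_natCast, Complex.norm_natCast, height, ← hL, ← discLog]
  have := mul_le_mul_of_nonneg_left b1 (Nat.cast_nonneg (nrRealPlaces K) : (0 : ℝ) ≤ _)
  have := mul_le_mul_of_nonneg_left b2 (Nat.cast_nonneg (nrComplexPlaces K) : (0 : ℝ) ≤ _)
  have := mul_le_mul_of_nonneg_right hr (show 0 ≤ 22 * L by linarith)
  linarith

/-- `-ζ_K'/ζ_K` is `O (n)` on `re s = 2`. -/
theorem exists_norm_negZeta_two : ∃ A, 0 ≤ A ∧ ∀ (K : Type u) [Field K] [NumberField K] (t : ℝ),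
    ‖negZeta K (((2 : ℝ) : ℂ) + t * I)‖ ≤ A * finrank ℚ K := by
  obtain ⟨f, hf⟩ : ∃ f : ℕ → ℂ, f = fun n => ((Λ n : ℝ) : ℂ) := ⟨_, rfl⟩
  have hsum : Summable fun n => ‖LSeries.term f 2 n‖ :=
    (hf ▸ ArithmeticFunction.LSeriesSummable_vonMangoldt (s := 2) (by norm_num)).norm
  refine ⟨∑' n, ‖LSeries.term f 2 n‖, tsum_nonneg fun n => norm_nonneg _, fun K _ _ t => ?_⟩
  obtain ⟨u, hu⟩ : ∃ u : ℂ, u = ((2 : ℝ) : ℂ) + t * I := ⟨_, rfl⟩
  have hre : u.re = 2 := by simp [hu]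
  have h1 : 1 < u.re := by rw [hre]; norm_num
  have hs := (LSeries_mangoldtK (differentiable_cleared K)
    (fun z hz => cleared_spec K hz) h1).1.norm
  rw [← hu, negZeta_eq_LSeries K h1, mul_comm, ← tsum_mul_left]
  refine (norm_tsum_le_tsum_norm hs).trans (hs.tsum_le_tsum (fun n => ?_) (hsum.mul_left _))
  rw [LSeries.norm_term_eq, LSeries.norm_term_eq, hre, show (2 : ℂ).re = 2 by norm_num]
  split_ifs
  · simp
  · rw [← mul_div_assoc]
    refine div_le_div_of_nonneg_right ?_ (by positivity)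
    rw [hf, Complex.norm_real, Complex.norm_real, Real.norm_of_nonneg (mangoldtK_nonneg K n),
      Real.norm_of_nonneg ArithmeticFunction.vonMangoldt_nonneg]
    exact mangoldtK_le K n

/-- `m / (1 + (γ - t)²)`. -/
def windowTerm (t : ℝ) (ρ : ℂ) : ℝ := (xiMult K ρ : ℝ) / (1 + (ρ.im - t) ^ 2)

theorem windowTerm_nonneg (t : ℝ) (ρ : ℂ) : 0 ≤ windowTerm K t ρ := by
  rw [windowTerm]
  positivity

theorem strip_of_mult {ρ : ℂ} (h : xiMult K ρ ≠ 0) :
    xiFun K ρ = 0 ∧ 0 < ρ.re ∧ ρ.re < 1 :=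
  ⟨(xiMult_ne_zero_iff K).1 h, xi_zero_strip K ((xiMult_ne_zero_iff K).1 h)⟩

theorem windowTerm_le_reTerm (t : ℝ) (ρ : ℂ) :
    windowTerm K t ρ ≤ 4 * reTerm K (((2 : ℝ) : ℂ) + t * I) ρ := by
  by_cases hm : xiMult K ρ = 0
  · simp [windowTerm, reTerm, hm]
  obtain ⟨-, h0, h1⟩ := strip_of_mult K hm
  rw [windowTerm, reTerm, inv_re, normSq_apply, div_eq_mul_inv, ← mul_left_comm]
  refine mul_le_mul_of_nonneg_left ?_ (Nat.cast_nonneg _)
  simp only [add_re, ofReal_re, mul_re, I_re, mul_zero, ofReal_im, I_im, mul_one, sub_self,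
    add_zero, sub_re, sub_im, add_im, mul_im, zero_add]
  rw [mul_div_assoc', inv_eq_one_div, div_le_div_iff₀ (by positivity) (by nlinarith)]
  nlinarith [sq_nonneg (ρ.im - t)]

theorem norm_xiLog_two_le {A : ℝ} (t : ℝ)
    (hA : ‖negZeta K (((2 : ℝ) : ℂ) + t * I)‖ ≤ A * finrank ℚ K) (hA0 : 0 ≤ A) :
    ‖xiLog K (((2 : ℝ) : ℂ) + t * I)‖ ≤ (A + 24) * height K t := by
  obtain ⟨u, hu⟩ : ∃ u : ℂ, u = ((2 : ℝ) : ℂ) + t * I := ⟨_, rfl⟩
  have hre : u.re = 2 := by simp [hu]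
  have him : u.im = t := by simp [hu]
  rw [← hu] at hA ⊢
  have hr := norm_regPart_le K (s := u) (by rw [hre]; norm_num) (by rw [hre])
  rw [him] at hr
  have hn : (finrank ℚ K : ℝ) ≤ height K t := finrank_le_height K t
  have h1 := one_le_height K t
  have e1 : ‖(u - 1)⁻¹‖ ≤ 1 := by
    rw [norm_inv]
    refine inv_le_one_of_one_le₀ (le_trans ?_ (Complex.re_le_norm _))
    simp [hre]
    norm_num
  have e2 : ‖(unitCount K : ℂ) * u⁻¹‖ ≤ height K t := by
    rw [norm_mul, Complex.norm_real, Real.norm_eq_abs, norm_inv]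
    refine (mul_le_of_le_one_right (abs_nonneg _) ?_).trans ((abs_unitCount_le K).trans hn)
    exact inv_le_one_of_one_le₀ (le_trans (by linarith) (hre ▸ Complex.re_le_norm u))
  rw [show xiLog K u = (u - 1)⁻¹ + regPart K u - unitCount K * u⁻¹ - negZeta K u by
    rw [negZeta]; ring]
  refine (norm_sub_le _ _).trans ((add_le_add ((norm_sub_le _ _).trans
    (add_le_add (norm_add_le _ _) le_rfl)) hA).trans ?_)
  have := mul_le_mul_of_nonneg_left hn hA0
  linarith

/-- **`∑ m / (1 + (γ - t)²) = O (height t)`.** -/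
theorem exists_window_weight : ∃ C, 0 ≤ C ∧ ∀ (K : Type u) [Field K] [NumberField K] (t : ℝ),
    Summable (windowTerm K t) ∧ ∑' ρ, windowTerm K t ρ ≤ C * height K t := by
  obtain ⟨A, hA, h2⟩ := exists_norm_negZeta_two.{u}
  refine ⟨4 * (A + 24), by positivity, fun K _ _ t => ?_⟩
  have hr := hasSum_reTerm K (s := ((2 : ℝ) : ℂ) + t * I) (xi_ne_zero_right K (by simp))
  have hs : Summable (windowTerm K t) := Summable.of_nonneg_of_le (windowTerm_nonneg K t)
    (windowTerm_le_reTerm K t) (hr.summable.mul_left 4)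
  refine ⟨hs, (hs.tsum_le_tsum (windowTerm_le_reTerm K t) (hr.summable.mul_left 4)).trans ?_⟩
  rw [(hr.mul_left 4).tsum_eq]
  linarith [(Complex.re_le_norm _).trans (norm_xiLog_two_le K t (h2 K t) hA)]

/-- **`ξ'/ξ` away from the zeros.** -/
theorem exists_norm_xiLog : ∃ C, 0 ≤ C ∧ ∀ (K : Type u) [Field K] [NumberField K] (s : ℂ) (δ : ℝ),
    -(1 / 2) ≤ s.re → s.re ≤ 2 → 0 < δ → δ ≤ 1 → (∀ ρ, xiFun K ρ = 0 → δ ≤ ‖s - ρ‖) →
      ‖xiLog K s‖ ≤ C * height K s.im / δ := by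
  obtain ⟨W, hW, hw⟩ := exists_window_weight.{u}
  obtain ⟨A, hA, h2⟩ := exists_norm_negZeta_two.{u}
  refine ⟨6 * W + (A + 24), by positivity, fun K _ _ s δ hs1 hs2 hδ hδ1 hgap => ?_⟩
  have hc : xiFun K s ≠ 0 := fun h => by
    have := hgap s h
    rw [sub_self, norm_zero] at this
    linarith
  obtain ⟨t, ht⟩ : ∃ t, t = s.im := ⟨_, rfl⟩
  obtain ⟨u, hu⟩ : ∃ u : ℂ, u = ((2 : ℝ) : ℂ) + t * I := ⟨_, rfl⟩
  have hure : u.re = 2 := by simp [hu]
  have huim : u.im = t := by simp [hu]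
  obtain ⟨hsw, hWt⟩ := hw K t
  have hd : HasSum (fun ρ : ℂ => (xiMult K ρ : ℂ) * ((s - ρ)⁻¹ - (u - ρ)⁻¹))
      (xiLog K s - xiLog K u) := by
    have := (hasSum_xiFrac K hc).sub (hasSum_xiFrac K (xi_ne_zero_right K (s := u)
      (by rw [hure]; norm_num)))
    rw [sub_sub_sub_cancel_right] at this
    exact this.congr_fun fun ρ => by ring
  have hdiff : ‖xiLog K s - xiLog K u‖ ≤ 6 / δ * (W * height K t) := by
    rw [← hd.tsum_eq]
    refine (tsum_of_norm_bounded (hsw.hasSum.mul_left (6 / δ)) fun ρ => ?_).trans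
      (mul_le_mul_of_nonneg_left hWt (by positivity))
    by_cases hm : xiMult K ρ = 0
    · simp [windowTerm, hm]
    obtain ⟨hρ, h0, h1⟩ := strip_of_mult K hm
    have g1 := hgap ρ hρ
    have n1 : s - ρ ≠ 0 := norm_pos_iff.1 (by linarith)
    have n2 : u - ρ ≠ 0 := fun h => by
      have := congrArg Complex.re h
      simp [hure] at this
      linarith
    rw [windowTerm, norm_mul, Complex.norm_natCast,
      show (6 / δ) * ((xiMult K ρ : ℝ) / (1 + (ρ.im - t) ^ 2)) =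
        xiMult K ρ * (6 / δ / (1 + (ρ.im - t) ^ 2)) by ring,
      show (s - ρ)⁻¹ - (u - ρ)⁻¹ = (u - s) / ((s - ρ) * (u - ρ)) by field_simp; ring,
      norm_div, norm_mul]
    refine mul_le_mul_of_nonneg_left ?_ (Nat.cast_nonneg _)
    have e1 : ‖u - s‖ ≤ 3 := by
      rw [show u - s = ((2 - s.re : ℝ) : ℂ) from
        Complex.ext (by simp [hure]) (by simp [huim, ht]), Complex.norm_real, Real.norm_eq_abs,
        abs_le]
      constructor <;> linarith
    have b2 : |ρ.im - t| ≤ ‖u - ρ‖ := by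
      have := abs_im_le_norm (u - ρ)
      rwa [sub_im, abs_sub_comm, huim] at this
    have b1 : |ρ.im - t| ≤ ‖s - ρ‖ := by
      have := abs_im_le_norm (s - ρ)
      rwa [sub_im, abs_sub_comm, ← ht] at this
    have b3 : 1 ≤ ‖u - ρ‖ := le_trans (by simp [hure]; linarith) (Complex.re_le_norm (u - ρ))
    have hsρ : 0 < ‖s - ρ‖ := by linarith
    rw [div_le_div_iff₀ (by positivity) (by positivity)]
    calc ‖u - s‖ * (1 + (ρ.im - t) ^ 2)
        ≤ 3 * ((1 + |ρ.im - t|) * ‖u - ρ‖) := by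
          refine mul_le_mul e1 ?_ (by positivity) (by norm_num)
          nlinarith [sq_abs (ρ.im - t), mul_le_mul_of_nonneg_left b2 (abs_nonneg (ρ.im - t))]
      _ ≤ 3 * ((2 / δ * ‖s - ρ‖) * ‖u - ρ‖) := by
          gcongr
          have h4 : 1 ≤ 1 / δ * ‖s - ρ‖ := by rw [div_mul_eq_mul_div, le_div_iff₀ hδ]; linarith
          have h5 : ‖s - ρ‖ ≤ 1 / δ * ‖s - ρ‖ :=
            le_mul_of_one_le_left hsρ.le ((one_le_div hδ).2 hδ1)
          rw [show 2 / δ * ‖s - ρ‖ = 1 / δ * ‖s - ρ‖ + 1 / δ * ‖s - ρ‖ by ring]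
          linarith
      _ = _ := by ring
  have hu2 := norm_xiLog_two_le K t (h2 K t) hA
  rw [← hu] at hu2
  rw [← ht, show (6 * W + (A + 24)) * height K t / δ =
    6 / δ * (W * height K t) + (A + 24) * height K t / δ by ring]
  refine (norm_le_norm_add_norm_sub' _ (xiLog K u)).trans ?_
  linarith [le_div_self (mul_nonneg (by linarith) (zero_le_one.trans (one_le_height K t)))
    hδ hδ1 (a := (A + 24) * height K t)]

/-- **`-ζ_K'/ζ_K` away from the zeros and poles.** -/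
theorem exists_norm_negZeta : ∃ C, 0 ≤ C ∧ ∀ (K : Type u) [Field K] [NumberField K] (s : ℂ)
    (δ : ℝ), -(1 / 2) ≤ s.re → s.re ≤ 2 → 0 < δ → δ ≤ 1 →
      (∀ ρ, xiFun K ρ = 0 → δ ≤ ‖s - ρ‖) → δ ≤ ‖s‖ → δ ≤ ‖s - 1‖ →
        ‖negZeta K s‖ ≤ C * height K s.im / δ := by
  obtain ⟨C, hC, h⟩ := exists_norm_xiLog.{u}
  refine ⟨C + 24, by linarith, fun K _ _ s δ h1 h2 hδ hδ1 hgap hs hs1 => ?_⟩
  obtain ⟨H, hH⟩ : ∃ H, H = height K s.im := ⟨_, rfl⟩
  have hH1 : 1 ≤ H := hH ▸ one_le_height K _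
  have hr := norm_regPart_le K h1 h2
  have hx := h K s δ h1 h2 hδ hδ1 hgap
  rw [← hH] at hr hx ⊢
  have e1 : ‖(s - 1)⁻¹‖ ≤ H / δ := by
    rw [norm_inv]
    exact (inv_anti₀ hδ hs1).trans (by rw [← one_div]; gcongr)
  have e2 : ‖(unitCount K : ℂ) * s⁻¹‖ ≤ H / δ := by
    rw [norm_mul, Complex.norm_real, Real.norm_eq_abs, norm_inv, div_eq_mul_inv]
    exact mul_le_mul ((abs_unitCount_le K).trans (hH ▸ finrank_le_height K _)) (inv_anti₀ hδ hs)
      (by positivity) (by linarith)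
  have e3 : H ≤ H / δ := le_div_self (by linarith) hδ hδ1
  rw [negZeta, show (C + 24) * H / δ = C * H / δ + 24 * (H / δ) by ring]
  refine (norm_sub_le _ _).trans ((add_le_add ((norm_add_le _ _).trans
    (add_le_add (norm_sub_le _ _) le_rfl)) le_rfl).trans ?_)
  linarith

end FA.DedekindExplicit

end
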