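import Fermat.Agent.DedekindExplicit.Psi
import Fermat.Agent.DedekindPrimeIdeals.Split

/-!
# `θ_K`, `π_K` and the least prime of degree one

On `re ρ ≤ β` also `θ_K x = x + O_β (x^β log x (log |d| + n log x))` and
`π_K x = li x + O_β (x^β (log |d| + n log x))`. If no unramified prime up to `x` has a place of
degree one, then `ψ_K x ≤ n (ψ x - θ x + log |d|)`; Minkowski bounds `n` by `1 + 2 log |d|`.
-/

set_option autoImplicit false
set_option linter.style.haveILetI false

noncomputable section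

universe u

open NumberField IsDedekindDomain Module Finset Ideal MeasureTheory
open FA.DedekindZeroCount
open FA.DedekindPIT (mangoldtK mangoldtK_nonneg psiK thetaK piK primeLog thetaK_le_psiK
  psiK_sub_thetaK_le piK_eq intervalIntegrable_thetaK mangoldtK_eq_of_prime mangoldtK_le)
open FA.ArtinHooley (FieldRH)
open FA.Hecke (primesLE mem_primesLE)
open scoped Real Classical ArithmeticFunction.vonMangoldt

namespace FA.DedekindExplicit

variable (K : Type u) [Field K] [NumberField K]

/-- **`θ_K` in terms of the real parts of the zeros.** -/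
theorem exists_thetaK_sharp : ∃ A, 0 ≤ A ∧ ∀ (K : Type u) [Field K] [NumberField K] (β : ℝ),
    1 / 2 ≤ β → β < 1 → ZerosLeftOf K β → ∀ x : ℝ, 2 ≤ x →
      |thetaK K x - x| ≤
        A / (1 - β) * (x ^ β * Real.log x * (discLog K + finrank ℚ K * Real.log x)) := by
  obtain ⟨A, hA, h⟩ := exists_psiK_sharp.{u}
  refine ⟨A + 3, by positivity, fun K _ _ β hβ hβ1 hz x hx => ?_⟩
  have h1 := thetaK_le_psiK K x
  have h2 := psiK_sub_thetaK_le K (show 1 ≤ x by linarith)
  have hl : 0.69 ≤ Real.log x :=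
    le_trans (by linarith [Real.log_two_gt_d9]) (Real.log_le_log two_pos hx)
  have hd := discLog_nonneg K
  obtain ⟨M, hM⟩ : ∃ M, M = x ^ β * Real.log x * (discLog K + finrank ℚ K * Real.log x) :=
    ⟨_, rfl⟩
  rw [← hM]
  have hp := h K β hβ hβ1 hz x hx
  rw [← hM] at hp
  have hs : √x ≤ x ^ β := by
    rw [Real.sqrt_eq_rpow]
    exact Real.rpow_le_rpow_of_exponent_le (by linarith) hβ
  have hn0 : (0 : ℝ) ≤ finrank ℚ K := Nat.cast_nonneg _
  have e1 : (finrank ℚ K : ℝ) * (2 * √x * Real.log x) ≤ 3 * M := by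
    rw [hM, show (finrank ℚ K : ℝ) * (2 * √x * Real.log x) =
      √x * Real.log x * (2 * finrank ℚ K) by ring,
      show 3 * (x ^ β * Real.log x * (discLog K + finrank ℚ K * Real.log x)) =
        x ^ β * Real.log x * (3 * (discLog K + finrank ℚ K * Real.log x)) by ring]
    refine mul_le_mul (mul_le_mul_of_nonneg_right hs (by linarith)) ?_ (by linarith) (by positivity)
    nlinarith
  have e2 : 3 * M ≤ 3 / (1 - β) * M := by
    have : 0 ≤ M := hM ▸ by positivity
    exact mul_le_mul_of_nonneg_right (le_div_self (by norm_num) (by linarith) (by linarith)) this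
  refine (abs_sub_le _ (psiK K x) _).trans ?_
  rw [abs_sub_comm (thetaK K x), abs_of_nonneg (by linarith), add_div, add_mul]
  linarith

/-- **`π_K` in terms of the real parts of the zeros.** -/
theorem exists_piK_sharp : ∃ A, 0 ≤ A ∧ ∀ (K : Type u) [Field K] [NumberField K] (β : ℝ),
    1 / 2 ≤ β → β < 1 → ZerosLeftOf K β → ∀ x : ℝ, 2 ≤ x →
      |piK K x - ∫ t in (2 : ℝ)..x, 1 / Real.log t| ≤
        A / (1 - β) * (x ^ β * (discLog K + finrank ℚ K * Real.log x)) := by
  obtain ⟨A, hA, h⟩ := exists_thetaK_sharp.{u}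
  refine ⟨5 * A + 5, by positivity, fun K _ _ β hβ hβ1 hz x hx => ?_⟩
  have hx0 : 0 < x := by linarith
  have hd1 : 0 < 1 - β := by linarith
  have hd := discLog_nonneg K
  have hl2 : 0.69 < Real.log 2 := lt_trans (by norm_num) Real.log_two_gt_d9
  have hlx : Real.log 2 ≤ Real.log x := Real.log_le_log two_pos hx
  have hn : (1 : ℝ) ≤ finrank ℚ K := Nat.one_le_cast.2 finrank_pos
  obtain ⟨G, hG⟩ : ∃ G, G = discLog K + finrank ℚ K * Real.log x := ⟨_, rfl⟩
  rw [← hG]
  have hG0 : 0.69 ≤ G := by rw [hG]; nlinarith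
  obtain ⟨B, hB⟩ : ∃ B, B = A / (1 - β) * G := ⟨_, rfl⟩
  have hB0 : 0 ≤ B := hB ▸ by positivity
  have hne : ∀ t ∈ Set.uIcc 2 x, 2 ≤ t ∧ t ≠ 0 ∧ Real.log t ≠ 0 := fun t ht => by
    rw [Set.uIcc_of_le hx] at ht
    exact ⟨ht.1, by linarith [ht.1], (Real.log_pos (by linarith [ht.1])).ne'⟩
  have hθ : ∀ t, 2 ≤ t → t ≤ x → |thetaK K t - t| ≤ B * (t ^ β * Real.log t) := fun t h2 ht => by
    refine (h K β hβ hβ1 hz t h2).trans ?_
    have : discLog K + finrank ℚ K * Real.log t ≤ G := by
      rw [hG]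
      gcongr
    rw [hB, show A / (1 - β) * G * (t ^ β * Real.log t) =
      A / (1 - β) * (t ^ β * Real.log t * G) by ring]
    have := Real.log_nonneg (show 1 ≤ t by linarith)
    gcongr
  have hcont : ContinuousOn (fun t => Real.log t) (Set.uIcc 2 x) :=
    fun t ht => (Real.continuousAt_log (hne t ht).2.1).continuousWithinAt
  have i1 : IntervalIntegrable (fun t => 1 / Real.log t) volume 2 x :=
    (continuousOn_const.div hcont fun t ht => (hne t ht).2.2).intervalIntegrable
  have i2 : IntervalIntegrable (fun t => t / (t * Real.log t ^ 2)) volume 2 x :=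
    (continuousOn_id.div (continuousOn_id.mul (hcont.pow 2)) fun t ht =>
      mul_ne_zero (hne t ht).2.1 (pow_ne_zero 2 (hne t ht).2.2)).intervalIntegrable
  have hparts : ∫ t in (2 : ℝ)..x, 1 / Real.log t =
      x / Real.log x - 2 / Real.log 2 + ∫ t in (2 : ℝ)..x, t / (t * Real.log t ^ 2) := by
    have hd' : ∀ t ∈ Set.uIcc 2 x, HasDerivAt (fun u => u / Real.log u)
        (1 / Real.log t - t / (t * Real.log t ^ 2)) t := fun t ht => by
      obtain ⟨-, ht0, hl⟩ := hne t ht
      refine ((hasDerivAt_id' t).div (Real.hasDerivAt_log ht0) hl).congr_deriv ?_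
      field_simp
    have := intervalIntegral.integral_eq_sub_of_hasDerivAt hd' (i1.sub i2)
    rw [intervalIntegral.integral_sub i1 i2] at this
    linarith
  have hxβ : 1 ≤ x ^ β := Real.one_le_rpow (by linarith) (by linarith)
  have hint : |(∫ t in (2 : ℝ)..x, thetaK K t / (t * Real.log t ^ 2)) -
      ∫ t in (2 : ℝ)..x, t / (t * Real.log t ^ 2)| ≤ 4 * B * x ^ β := by
    rw [← intervalIntegral.integral_sub (intervalIntegrable_thetaK K hx) i2, ← Real.norm_eq_abs]
    refine (intervalIntegral.norm_integral_le_of_norm_le hx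
      (Filter.Eventually.of_forall fun t ht => ?_)
      ((intervalIntegral.intervalIntegrable_rpow' (r := β - 1) (by linarith)).const_mul
        (2 * B))).trans ?_
    · have ht0 : 0 < t := by linarith [ht.1]
      have hlt : Real.log 2 ≤ Real.log t := Real.log_le_log two_pos ht.1.le
      rw [← sub_div, Real.norm_eq_abs, abs_div,
        abs_of_pos (mul_pos ht0 (by nlinarith) : 0 < t * Real.log t ^ 2),
        div_le_iff₀ (mul_pos ht0 (by nlinarith))]
      refine (hθ t ht.1.le ht.2).trans ?_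
      rw [show 2 * B * t ^ (β - 1) * (t * Real.log t ^ 2) =
        B * ((t ^ (β - 1) * t) * Real.log t * (2 * Real.log t)) by ring,
        ← Real.rpow_add_one ht0.ne', sub_add_cancel]
      refine mul_le_mul_of_nonneg_left (le_mul_of_one_le_right ?_ (by linarith)) hB0
      exact mul_nonneg (by positivity) (by linarith)
    · rw [intervalIntegral.integral_const_mul, integral_rpow (Or.inl (by linarith)),
        sub_add_cancel, show 4 * B * x ^ β = 2 * B * (2 * x ^ β) by ring]
      refine mul_le_mul_of_nonneg_left ?_ (by linarith)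
      rw [div_le_iff₀ (by linarith)]
      nlinarith [Real.rpow_nonneg zero_le_two β]
  have hmain : |(thetaK K x - x) / Real.log x| ≤ B * x ^ β := by
    rw [abs_div, abs_of_pos (by linarith : 0 < Real.log x), div_le_iff₀ (by linarith)]
    exact (hθ x hx le_rfl).trans (le_of_eq (by ring))
  have hc : |2 / Real.log 2| ≤ 5 / (1 - β) * (x ^ β * G) := by
    have h1 : (0.69 : ℝ) ≤ x ^ β * G := hG0.trans (le_mul_of_one_le_left (by linarith) hxβ)
    have h2 : (5 : ℝ) ≤ 5 / (1 - β) := le_div_self (by norm_num) hd1 (by linarith)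
    have h3 : |2 / Real.log 2| ≤ 3 := by
      rw [abs_of_pos (by positivity), div_le_iff₀ (by linarith)]
      linarith
    linarith [mul_le_mul h2 h1 (by norm_num) (by positivity)]
  rw [piK_eq K hx, hparts, show (5 * A + 5) / (1 - β) * (x ^ β * G) =
    5 * B * x ^ β + 5 / (1 - β) * (x ^ β * G) by rw [hB]; ring]
  rw [sub_div] at hmain
  rw [abs_le] at hint hmain hc ⊢
  constructor <;> linarith

/-- The primes of degree one weigh almost everything. -/
theorem psiK_le_of_no_degree_one {x : ℝ} (hx : 1 ≤ x)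
    (hno : ∀ p : ℕ, p.Prime → (p : ℝ) ≤ x → ¬ (p : ℤ) ∣ discr K →
      ∀ v : HeightOneSpectrum (𝓞 K), absNorm v.asIdeal ≠ p) :
    psiK K x ≤ finrank ℚ K * (Chebyshev.psi x - Chebyshev.theta x + discLog K) := by
  have hn0 : (0 : ℝ) ≤ finrank ℚ K := Nat.cast_nonneg _
  have key : ∀ n ∈ Icc 1 ⌊x⌋₊, mangoldtK K n ≤ finrank ℚ K *
      ((Λ n - if n.Prime then Real.log n else 0) +
        if n.Prime ∧ (n : ℤ) ∣ discr K then Real.log n else 0) := fun n hn => by
    by_cases hp : n.Prime
    · rw [if_pos hp, ArithmeticFunction.vonMangoldt_apply_prime hp, sub_self, zero_add]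
      by_cases hd : (n : ℤ) ∣ discr K
      · rw [if_pos ⟨hp, hd⟩, ← ArithmeticFunction.vonMangoldt_apply_prime hp]
        exact mangoldtK_le K n
      · rw [if_neg (fun h => hd h.2), mul_zero, mangoldtK_eq_of_prime K hp, primeLog]
        refine le_of_eq (Finset.sum_eq_zero fun v hv => absurd (Finset.mem_filter.1 hv).2 ?_)
        exact hno n hp ((Nat.cast_le.2 (mem_Icc.1 hn).2).trans (Nat.floor_le (by linarith))) hd v
    · rw [if_neg hp, if_neg (fun h => hp h.1), sub_zero, add_zero]
      exact mangoldtK_le K n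
  refine (sum_le_sum key).trans ?_
  rw [← mul_sum, sum_add_distrib, sum_sub_distrib, discLog]
  refine mul_le_mul_of_nonneg_left
    (add_le_add ?_ (FA.DedekindPIT.sum_log_dvd_discr_le K _)) hn0
  refine le_of_eq ?_
  rw [Chebyshev.psi, Chebyshev.theta, Finset.sum_filter]
  rfl

/-- Minkowski: `n ≤ 1 + 2 log |d|`. -/
theorem finrank_le_discLog : (finrank ℚ K : ℝ) ≤ 1 + 2 * discLog K := by
  have hd := discLog_nonneg K
  rcases Nat.eq_or_lt_of_le (finrank_pos : 1 ≤ finrank ℚ K) with h | h
  · rw [← h, Nat.cast_one]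
    linarith
  have h1 := abs_discr_ge (K := K) h
  rw [show ((|discr K| : ℤ) : ℝ) = (((discr K).natAbs : ℕ) : ℝ) by
    rw [Nat.cast_natAbs]] at h1
  have h2 : (4 / 9 : ℝ) * (9 / 4) ^ finrank ℚ K ≤ (((discr K).natAbs : ℕ) : ℝ) := by
    refine le_trans ?_ h1
    gcongr
    linarith [Real.pi_gt_three]
  have h3 := Real.log_le_log (by positivity) h2
  rw [Real.log_mul (by norm_num) (by positivity), Real.log_pow, ← discLog,
    show (4 / 9 : ℝ) = (9 / 4)⁻¹ by norm_num, Real.log_inv] at h3
  have h4 : (0.69 : ℝ) ≤ Real.log (9 / 4) :=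
    le_trans (by linarith [Real.log_two_gt_d9]) (Real.log_le_log two_pos (by norm_num))
  have h5 := mul_le_mul_of_nonneg_left h4
    (sub_nonneg.2 (show (1 : ℝ) ≤ finrank ℚ K from Nat.one_le_cast.2 finrank_pos))
  linarith

/-- `log (2 |d|)`. -/
def discScale : ℝ := Real.log (2 * ((discr K).natAbs : ℕ))

theorem discScale_eq : discScale K = Real.log 2 + discLog K := by
  rw [discScale, discLog, Real.log_mul two_ne_zero
    (Nat.cast_ne_zero.2 (Int.natAbs_ne_zero.2 (discr_ne_zero K)))]

end FA.DedekindExplicit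

end
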