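import Fermat.Agent.DedekindExplicit.Residues
import Fermat.Agent.ArtinHooley.PrimeIdeal
import Fermat.Agent.GRHProgressions.Explicit

/-!
# The explicit formula for the moment of `Λ_K`

`∑_{n ≤ y} Λ_K n (y - n) = y² / 2 + c y - (r₁ + r₂ - 1) y log y - ∑ m y^(ρ+1) / (ρ (ρ+1)) + L y`,
with `L y` the integral on `re s = -1/2`, which is `O (√y (1 + log |d| + n))`. No hypothesis.
-/

set_option autoImplicit false
set_option linter.style.haveILetI false

noncomputable section

universe u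

open NumberField InfinitePlace Module Complex Filter Topology Set MeasureTheory
open FA.HeckeBS FA.HeckeFE FA.DedekindZF FA.DedekindZeroCount FA.DedekindHadamard
open FA.DedekindPIT (mangoldtK LSeries_mangoldtK momentSum)
open FA.ArtinHooley (fieldSize one_le_fieldSize height_le_rpow)
open FA.GRHProgressions (integrable_bracket)
open FA.ExplicitFormula (boxInt)
open scoped Real Classical

namespace FA.DedekindExplicit

variable (K : Type u) [Field K] [NumberField K]

/-- The coefficient of `y`. -/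
def linCoef : ℂ := regPart K 0 - xiLog K 0 - 1 + unitCount K

/-- The integral on `re s = -1/2`. -/
def leftInt (y : ℝ) : ℂ :=
  (1 / (2 * π) : ℂ) * ∫ t : ℝ,
    rawKer y (((-(1 / 2) : ℝ) : ℂ) + t * I) * negZeta K (((-(1 / 2) : ℝ) : ℂ) + t * I)

theorem one_add_im_le_norm {s : ℂ} (hs : 1 / 2 ≤ ‖s‖) : 1 + |s.im| ≤ 3 * ‖s‖ := by
  linarith [abs_im_le_norm s]

theorem norm_rawKer_le {s : ℂ} (hs : 1 / 2 ≤ ‖s‖) (hs' : 1 / 2 ≤ ‖s + 1‖) {y : ℝ} (hy : 0 < y) :
    ‖rawKer y s‖ ≤ 9 * y ^ (s.re + 1) / (1 + |s.im|) ^ 2 := by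
  have h1 := one_add_im_le_norm hs
  have h2 := one_add_im_le_norm hs'
  rw [show (s + 1).im = s.im by simp] at h2
  rw [rawKer, norm_div, norm_cpow_eq_rpow_re_of_pos hy, norm_mul, add_re, one_re,
    div_le_div_iff₀ (mul_pos (by linarith) (by linarith)) (by positivity),
    show 9 * y ^ (s.re + 1) * (‖s‖ * ‖s + 1‖) =
      y ^ (s.re + 1) * ((3 * ‖s‖) * (3 * ‖s + 1‖)) by ring, sq]
  exact mul_le_mul_of_nonneg_left (mul_le_mul h1 h2 (by positivity) (by linarith))
    (Real.rpow_nonneg hy.le _)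

theorem continuous_intK_line {y σ : ℝ} (hy : 0 < y) (h0 : σ ≠ 0) (h1 : σ ≠ 1) (hm : -1 < σ)
    (hne : ∀ t : ℝ, xiFun K ((σ : ℂ) + t * I) ≠ 0) :
    Continuous fun t : ℝ => rawKer y ((σ : ℂ) + t * I) * negZeta K ((σ : ℂ) + t * I) := by
  refine continuous_iff_continuousAt.2 fun t => ?_
  refine ContinuousAt.comp' (g := fun s => rawKer y s * negZeta K s) ?_
    (f := fun v : ℝ => (σ : ℂ) + v * I) (by fun_prop)
  obtain ⟨s, hs⟩ : ∃ s : ℂ, s = (σ : ℂ) + t * I := ⟨_, rfl⟩
  have hre : s.re = σ := by simp [hs]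
  have n0 : s ≠ 0 := fun h => h0 (by rw [← hre, h, zero_re])
  have n1 : s - 1 ≠ 0 := sub_ne_zero.2 fun h => h1 (by rw [← hre, h, one_re])
  have hk : ContinuousAt (rawKer y) s := by
    rw [show rawKer y = fun w => powKer y w / w from funext (rawKer_eq y)]
    exact (differentiableAt_powKer hy (hre ▸ hm)).continuousAt.div continuousAt_id n0
  rw [← hs]
  refine hk.mul ?_
  show ContinuousAt (fun w => (w - 1)⁻¹ - xiLog K w + regPart K w - unitCount K * w⁻¹) s
  exact ((((continuousAt_id.sub continuousAt_const).inv₀ n1).sub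
    (continuousAt_xiLog K (hs ▸ hne t))).add
      (differentiableAt_regPart K (hre ▸ hm)).continuousAt).sub
        (continuousAt_const.mul (continuousAt_id.inv₀ n0))

/-- **The integrand on `re s = -1/2`.** -/
theorem exists_norm_intK_left : ∃ C, 0 ≤ C ∧ ∀ (K : Type u) [Field K] [NumberField K] (y t : ℝ),
    0 < y → ‖rawKer y (((-(1 / 2) : ℝ) : ℂ) + t * I) *
      negZeta K (((-(1 / 2) : ℝ) : ℂ) + t * I)‖ ≤
        C * fieldSize K * √y * (1 + |t|) ^ (-(7 / 4) : ℝ) := by
  obtain ⟨C, hC, h⟩ := exists_norm_negZeta.{u}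
  refine ⟨216 * C, by positivity, fun K _ _ y t hy => ?_⟩
  obtain ⟨s, hs⟩ : ∃ s : ℂ, s = ((-(1 / 2) : ℝ) : ℂ) + t * I := ⟨_, rfl⟩
  have hre : s.re = -(1 / 2) := by simp [hs]
  have him : s.im = t := by simp [hs]
  have hh : ∀ z : ℂ, z.re ≤ -(1 / 2) ∨ 1 / 2 ≤ z.re → 1 / 2 ≤ ‖z‖ := fun z hz => by
    refine le_trans ?_ (abs_re_le_norm z)
    rcases hz with hz | hz
    · linarith [neg_le_abs z.re]
    · linarith [le_abs_self z.re]
  have g0 : 1 / 2 ≤ ‖s‖ := hh s (Or.inl hre.le)
  have g1 : 1 / 2 ≤ ‖s + 1‖ := hh _ (Or.inr (by rw [add_re, hre, one_re]; norm_num))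
  have g2 : 1 / 2 ≤ ‖s - 1‖ := hh _ (Or.inl (by rw [sub_re, hre, one_re]; norm_num))
  have hn := h K s (1 / 2) hre.ge (by rw [hre]; norm_num) (by norm_num) (by norm_num)
    (fun ρ hρ => hh _ (Or.inl (by rw [sub_re, hre]; linarith [(xi_zero_strip K hρ).1]))) g0 g2
  rw [him] at hn
  have hk := norm_rawKer_le g0 g1 hy
  rw [hre, him, show (-(1 / 2) + 1 : ℝ) = 1 / 2 by norm_num, ← Real.sqrt_eq_rpow] at hk
  have hH := height_le_rpow (K := K) (κ := 1 / 4) (by norm_num) (by norm_num) t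
  have ht : 0 < 1 + |t| := by positivity
  rw [← hs, norm_mul]
  refine (mul_le_mul hk (hn.trans (div_le_div_of_nonneg_right
    (mul_le_mul_of_nonneg_left hH hC) (by norm_num))) (norm_nonneg _) (by positivity)).trans
      (le_of_eq ?_)
  rw [show (-(7 / 4) : ℝ) = 1 / 4 - (2 : ℕ) by norm_num, Real.rpow_sub ht, Real.rpow_natCast]
  ring

theorem integrable_intK_left {y : ℝ} (hy : 0 < y) : Integrable fun t : ℝ =>
    rawKer y (((-(1 / 2) : ℝ) : ℂ) + t * I) * negZeta K (((-(1 / 2) : ℝ) : ℂ) + t * I) := by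
  obtain ⟨C, -, h⟩ := exists_norm_intK_left.{u}
  exact ((integrable_bracket (show (1 : ℝ) < 7 / 4 by norm_num)).const_mul
    (C * fieldSize K * √y)).mono' (continuous_intK_line K hy (by norm_num) (by norm_num)
      (by norm_num) fun t h0 => by
        have := (xi_zero_strip K h0).1
        simp at this
        linarith).aestronglyMeasurable (Eventually.of_forall fun t => h K y t hy)

/-- **`L y = O (√y (1 + log |d| + n))`.** -/
theorem exists_norm_leftInt : ∃ C, 0 ≤ C ∧ ∀ (K : Type u) [Field K] [NumberField K] (y : ℝ),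
    0 < y → ‖leftInt K y‖ ≤ C * fieldSize K * √y := by
  obtain ⟨C, hC, h⟩ := exists_norm_intK_left.{u}
  have hint := integrable_bracket (show (1 : ℝ) < 7 / 4 by norm_num)
  obtain ⟨J, hJ⟩ : ∃ J : ℝ, J = ∫ t : ℝ, (1 + |t|) ^ (-(7 / 4) : ℝ) := ⟨_, rfl⟩
  have hJ0 : 0 ≤ J := hJ ▸ integral_nonneg fun t => by positivity
  refine ⟨C * J, by positivity, fun K _ _ y hy => ?_⟩
  have h2 : ‖(1 / (2 * π) : ℂ)‖ ≤ 1 := by
    rw [show (1 / (2 * π) : ℂ) = ((1 / (2 * π) : ℝ) : ℂ) by push_cast; ring, Complex.norm_real,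
      Real.norm_of_nonneg (by positivity)]
    exact (div_le_one (by positivity)).2 (by linarith [Real.pi_gt_three])
  rw [leftInt, norm_mul]
  refine (mul_le_of_le_one_left (norm_nonneg _) h2).trans ((norm_integral_le_of_norm_le
    (hint.const_mul (C * fieldSize K * √y)) (Eventually.of_forall fun t => h K y t hy)).trans
      (le_of_eq ?_))
  rw [integral_const_mul, ← hJ]
  ring

theorem summable_rawKer {y : ℝ} (hy : 1 ≤ y) :
    Summable fun ρ => ‖(xiMult K ρ : ℂ) * rawKer y ρ‖ := by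
  refine Summable.of_nonneg_of_le (fun ρ => norm_nonneg _) (fun ρ => ?_)
    ((summable_inv_sq (differentiable_xiFun K) (xiFun_zero_ne K) (growC_pos K).le
      (grows_xiFun K)).mul_left (y ^ (2 : ℝ)))
  rw [norm_mul, Complex.norm_natCast]
  by_cases hm : xiMult K ρ = 0
  · rw [hm, Nat.cast_zero, zero_mul]
    positivity
  obtain ⟨-, h0, h1⟩ := strip_of_mult K hm
  have hn : 0 < ‖ρ‖ := norm_pos_iff.2 fun h => by simp [h] at h0
  have hle : ‖ρ‖ ≤ ‖ρ + 1‖ := FA.GRHProgressions.norm_le_norm_add_one h0.le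
  rw [← mul_assoc, mul_comm (y ^ (2 : ℝ)), mul_assoc]
  refine mul_le_mul_of_nonneg_left ?_ (Nat.cast_nonneg _)
  rw [rawKer, norm_div, norm_cpow_eq_rpow_re_of_pos (by linarith), norm_mul, div_eq_mul_inv]
  refine mul_le_mul (Real.rpow_le_rpow_of_exponent_le hy (by simp; linarith)) ?_ (by positivity)
    (by positivity)
  exact inv_anti₀ (by positivity) (by rw [sq]; exact mul_le_mul_of_nonneg_left hle hn.le)

theorem tendsto_zero_sum {f : ℂ → ℂ} (hf : Summable f) (h0 : ∀ ρ, xiFun K ρ ≠ 0 → f ρ = 0)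
    {T : ℕ → ℝ} (hT : Tendsto T atTop atTop) :
    Tendsto (fun m => ∑ ρ ∈ (finite_stripZeros K (T m)).toFinset, f ρ) atTop
      (𝓝 (∑' ρ, f ρ)) := by
  obtain ⟨V, hV⟩ : ∃ V : Set ℂ, V = {ρ | xiFun K ρ = 0} := ⟨_, rfl⟩
  have hsupp : Function.support f ⊆ V := fun ρ hρ => by
    rw [hV]
    by_contra h
    exact hρ (h0 ρ h)
  have h : HasSum (f ∘ ((↑) : V → ℂ)) (∑' ρ, f ρ) :=
    (hasSum_subtype_iff_of_support_subset hsupp).2 hf.hasSum
  have hatTop : Tendsto
      (fun m => (finite_stripZeros K (T m)).toFinset.subtype fun ρ => ρ ∈ V) atTop atTop := by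
    refine tendsto_atTop.2 fun S => ?_
    filter_upwards [hT.eventually (eventually_ge_atTop (∑ ρ ∈ S, |(ρ : ℂ).im|))] with m hm
    intro ρ hρ
    have hz : xiFun K (ρ : ℂ) = 0 := by
      have := ρ.2
      simpa only [hV, mem_ofPred_eq] using this
    rw [Finset.mem_subtype, Set.Finite.mem_toFinset, mem_stripZeros_iff]
    exact ⟨hz, le_trans (Finset.single_le_sum (f := fun ρ : V => |(ρ : ℂ).im|)
      (fun i _ => abs_nonneg _) hρ) hm⟩
  exact (h.comp hatTop).congr fun m => Finset.sum_subtype_of_mem f fun ρ hρ =>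
    hV ▸ ((mem_stripZeros_iff K).1 ((Set.Finite.mem_toFinset _).1 hρ)).1

/-- **The explicit formula.** -/
theorem momentSum_eq {y : ℝ} (hy : 1 ≤ y) :
    (momentSum (mangoldtK K) y : ℂ) = (y : ℂ) ^ 2 / 2 + linCoef K * y -
      unitCount K * ((y * Real.log y : ℝ) : ℂ) - (∑' ρ, (xiMult K ρ : ℂ) * rawKer y ρ) +
        leftInt K y := by
  have hy0 : 0 < y := by linarith
  obtain ⟨C, hC, hneg⟩ := exists_norm_negZeta.{u}
  obtain ⟨G, hG, hheight⟩ := exists_good_height.{u}
  obtain ⟨A, hA, htwo⟩ := exists_norm_negZeta_two.{u}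
  choose T δ hT1 hT2 hδ0 hδ1 hδ hgap using fun m : ℕ =>
    hheight K ((m : ℝ) + 1) (by positivity)
  have hT0 : ∀ m, 1 ≤ T m := fun m => by linarith [hT1 m, (Nat.cast_nonneg m : (0 : ℝ) ≤ m)]
  have hTtop : Tendsto T atTop atTop := tendsto_atTop_mono
    (fun m => by linarith [hT1 m]) tendsto_natCast_atTop_atTop
  obtain ⟨c, hc⟩ : ∃ c, c = 9 * y ^ (3 : ℝ) * (C * G * (144 * fieldSize K ^ 2)) := ⟨_, rfl⟩
  have hhor : ∀ m (w : ℝ), |w| = T m →
      ‖∫ u in (-(1 / 2) : ℝ)..2, rawKer y ((u : ℂ) + (w : ℂ) * I) *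
        negZeta K ((u : ℂ) + (w : ℂ) * I)‖ ≤ 3 * c * (T m)⁻¹ := by
    intro m w hw
    have ht1 := hT0 m
    refine (intervalIntegral.norm_integral_le_of_norm_le_const (C := c * (T m)⁻¹)
      fun u hu => ?_).trans ?_
    · rw [uIoc_of_le (by norm_num)] at hu
      obtain ⟨s, hs⟩ : ∃ s : ℂ, s = (u : ℂ) + (w : ℂ) * I := ⟨_, rfl⟩
      have hre : s.re = u := by simp [hs]
      have him : s.im = w := by simp [hs]
      have hbig : ∀ z : ℂ, z.im = w → 1 ≤ ‖z‖ := fun z hz => by
        refine le_trans ?_ (abs_im_le_norm z)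
        rw [hz, hw]
        exact ht1
      have h1 := hneg K s (δ m) (by linarith [hu.1]) (by linarith [hu.2]) (hδ0 m) (hδ1 m)
        (fun ρ hρ => (hgap m ρ hρ).trans (by
          have := abs_im_le_norm (s - ρ)
          rw [sub_im, abs_sub_comm, him] at this
          refine le_trans ?_ this
          rw [← hw]
          exact abs_abs_sub_abs_le_abs_sub ρ.im w))
        ((hδ1 m).trans (hbig s him)) ((hδ1 m).trans (hbig _ (by simp [him])))
      have hHm : height K ((m : ℝ) + 1) ≤ height K (T m) := height_mono K (by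
        rw [abs_of_nonneg (by positivity), abs_of_nonneg (by linarith)]
        exact hT1 m)
      have hHw : height K s.im = height K (T m) := by rw [him, ← height_abs K w, hw]
      have q1 := one_le_height K (T m)
      have h2 : C * height K s.im / δ m ≤ C * G * height K (T m) ^ 2 := by
        rw [hHw, div_eq_mul_one_div, show C * G * height K (T m) ^ 2 =
          C * height K (T m) * (G * height K (T m)) by ring]
        exact mul_le_mul_of_nonneg_left
          ((hδ m).trans (mul_le_mul_of_nonneg_left hHm hG.le)) (mul_nonneg hC (by linarith))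
      have h3 : height K (T m) ^ 2 ≤ 144 * fieldSize K ^ 2 * (1 + T m) := by
        have hb := height_le_rpow (K := K) (κ := 1 / 4) (by norm_num) (by norm_num) (T m)
        rw [abs_of_nonneg (by linarith : 0 ≤ T m)] at hb
        refine (pow_le_pow_left₀ (by linarith) hb 2).trans ?_
        rw [show (fieldSize K * (3 / (1 / 4)) * (1 + T m) ^ (1 / 4 : ℝ)) ^ 2 =
          144 * fieldSize K ^ 2 * ((1 + T m) ^ (1 / 4 : ℝ)) ^ 2 by ring]
        refine mul_le_mul_of_nonneg_left ?_ (by positivity)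
        rw [← Real.rpow_natCast _ 2, ← Real.rpow_mul (by linarith)]
        exact Real.rpow_le_self_of_one_le (by linarith) (by norm_num)
      have hk : ‖rawKer y s‖ ≤ 9 * y ^ (3 : ℝ) / (1 + T m) ^ 2 := by
        refine (norm_rawKer_le (by linarith [hbig s him])
          (by linarith [hbig (s + 1) (by simp [him])]) hy0).trans ?_
        rw [him, hw]
        exact div_le_div_of_nonneg_right (mul_le_mul_of_nonneg_left
          (Real.rpow_le_rpow_of_exponent_le hy (by linarith [hu.2])) (by norm_num))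
          (by positivity)
      rw [← hs, norm_mul]
      refine (mul_le_mul hk ((h1.trans h2).trans (mul_le_mul_of_nonneg_left h3 (by positivity)))
        (norm_nonneg _) (by positivity)).trans ?_
      rw [hc, show 9 * y ^ (3 : ℝ) / (1 + T m) ^ 2 *
        (C * G * (144 * fieldSize K ^ 2 * (1 + T m))) =
          9 * y ^ (3 : ℝ) * (C * G * (144 * fieldSize K ^ 2)) * (1 + T m)⁻¹ by field_simp]
      exact mul_le_mul_of_nonneg_left (inv_anti₀ (by linarith) (by linarith)) (by positivity)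
    · have : 0 ≤ c * (T m)⁻¹ := by rw [hc]; positivity
      norm_num
      linarith
  have hlim : ∀ e : ℝ, (e = 1 ∨ e = -1) → Tendsto
      (fun m => ∫ u in (-(1 / 2) : ℝ)..2, rawKer y ((u : ℂ) + ((e * T m : ℝ) : ℂ) * I) *
        negZeta K ((u : ℂ) + ((e * T m : ℝ) : ℂ) * I)) atTop (𝓝 0) := fun e he => by
    refine squeeze_zero_norm (fun m => hhor m _ ?_) ?_
    · rcases he with rfl | rfl <;> simp [abs_of_nonneg (zero_le_one.trans (hT0 m))]
    · simpa using hTtop.inv_tendsto_atTop.const_mul (3 * c)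
  have hbot := hlim (-1) (Or.inr rfl)
  have htop := hlim 1 (Or.inl rfl)
  simp only [neg_one_mul, one_mul] at hbot htop
  have hiL := integrable_intK_left K hy0
  have hiR : Integrable fun t : ℝ =>
      rawKer y (((2 : ℝ) : ℂ) + t * I) * negZeta K (((2 : ℝ) : ℂ) + t * I) := by
    refine ((integrable_bracket (show (1 : ℝ) < 2 by norm_num)).const_mul
      (9 * y ^ (3 : ℝ) * (A * finrank ℚ K))).mono' (continuous_intK_line K hy0 (by norm_num)
        (by norm_num) (by norm_num) fun t =>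
          xi_ne_zero_right K (by simp)).aestronglyMeasurable (Eventually.of_forall fun t => ?_)
    obtain ⟨s, hs⟩ : ∃ s : ℂ, s = ((2 : ℝ) : ℂ) + t * I := ⟨_, rfl⟩
    have g0 : 1 / 2 ≤ ‖s‖ := le_trans (by simp [hs]; norm_num) (Complex.re_le_norm s)
    have g1 : 1 / 2 ≤ ‖s + 1‖ := le_trans (by simp [hs]; norm_num) (Complex.re_le_norm _)
    rw [norm_mul, ← hs]
    refine (mul_le_mul ((norm_rawKer_le g0 g1 hy0).trans (le_of_eq ?_))
      (hs ▸ htwo K t) (norm_nonneg _) (by positivity : 0 ≤ 9 * y ^ (3 : ℝ) /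
        (1 + |t|) ^ 2)).trans (le_of_eq ?_)
    · simp [hs]
      norm_num
    · rw [Real.rpow_neg (by positivity), Real.rpow_two]
      ring
  have hneg' : Tendsto (fun m => -T m) atTop atBot := tendsto_neg_atTop_atBot.comp hTtop
  have hl := intervalIntegral_tendsto_integral hiL hneg' hTtop
  have hr := intervalIntegral_tendsto_integral hiR hneg' hTtop
  have hbox := ((hbot.sub htop).add (hr.const_mul I)).sub (hl.const_mul I)
  have hsum := (((((tendsto_zero_sum K (summable_rawKer K hy).of_norm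
    (fun ρ h => by
      rw [show xiMult K ρ = 0 from not_not.1 fun h' => h ((xiMult_ne_zero_iff K).1 h'),
        Nat.cast_zero, zero_mul]) hTtop).const_sub ((y : ℂ) ^ 2 / 2 - y)).sub_const
          ((y : ℂ) * xiLog K 0)).add_const ((y : ℂ) * regPart K 0)).sub_const
            (unitCount K * ((y * Real.log y - y : ℝ) : ℂ))).const_mul (2 * π * I : ℂ)
  have heq := tendsto_nhds_unique hsum (hbox.congr fun m => by
    rw [← boxInt_rawKer K hy0 (by linarith [hT0 m]) fun ρ hρ h => by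
      have := hgap m ρ hρ
      rw [h, sub_self, abs_zero] at this
      linarith [hδ0 m], boxInt])
  have hperron := FA.SiegelWalfisz.smoothSum_eq (f := fun n => (mangoldtK K n : ℂ))
    (F := negZeta K) (x := y) (σ := 2) hy0 one_lt_two
    (LSeries_mangoldtK (differentiable_cleared K) (fun z hz => cleared_spec K hz) (by simp)).1
    fun s hs => (negZeta_eq_LSeries K hs).symm
  have hS : (momentSum (mangoldtK K) y : ℂ) =
      (y : ℂ) * FA.SiegelWalfisz.smoothSum (fun n => (mangoldtK K n : ℂ)) y := by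
    rw [FA.SiegelWalfisz.smoothSum, Finset.mul_sum, momentSum, ofReal_sum]
    refine Finset.sum_congr rfl fun n _ => ?_
    have : (y : ℂ) ≠ 0 := ofReal_ne_zero.2 hy0.ne'
    push_cast
    field_simp
  have e : ∀ t : ℝ, (y : ℂ) * FA.SiegelWalfisz.kernelMul (negZeta K) y (((2 : ℝ) : ℂ) + t * I) =
      rawKer y (((2 : ℝ) : ℂ) + t * I) * negZeta K (((2 : ℝ) : ℂ) + t * I) := fun t => by
    rw [FA.SiegelWalfisz.kernelMul, rawKer,
      cpow_add (((2 : ℝ) : ℂ) + t * I) 1 (ofReal_ne_zero.2 hy0.ne'), cpow_one]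
    ring
  rw [hS, hperron, Complex.real_smul, mul_left_comm, ← integral_const_mul]
  simp only [e]
  rw [leftInt, linCoef]
  generalize (∫ t : ℝ,
    rawKer y (((2 : ℝ) : ℂ) + t * I) * negZeta K (((2 : ℝ) : ℂ) + t * I)) = R at heq ⊢
  generalize (∫ t : ℝ, rawKer y (((-(1 / 2) : ℝ) : ℂ) + t * I) *
    negZeta K (((-(1 / 2) : ℝ) : ℂ) + t * I)) = L at heq ⊢
  generalize (∑' ρ, (xiMult K ρ : ℂ) * rawKer y ρ) = S at heq ⊢
  push_cast at heq ⊢
  generalize (Real.log y : ℂ) = l at heq ⊢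
  have hπ : (π : ℂ) ≠ 0 := ofReal_ne_zero.2 Real.pi_ne_zero
  field_simp
  linear_combination I * heq + (R - L - 2 * π * ((y : ℂ) ^ 2 / 2 - y - S - y * xiLog K 0 +
    y * regPart K 0 - unitCount K * (y * l - y))) * I_sq

end FA.DedekindExplicit

end
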