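import Fermat.Agent.DedekindExplicit.Count

/-!
# The least prime of degree one

On the hypothesis of Riemann for `ζ_K` some unramified prime has a place of degree one and is
`O (log² (2 |d|))`: in the explicit formula for the moment the zeros give `O (x^(3/2) log (2 |d|))`,
and without such primes the moment is as small.
-/

set_option autoImplicit false
set_option linter.style.haveILetI false

noncomputable section

universe u

open NumberField IsDedekindDomain Module Ideal Complex
open FA.DedekindZF FA.DedekindZeroCount FA.DedekindHadamard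
open FA.DedekindPIT (mangoldtK mangoldtK_nonneg momentSum momentSum_sub_bounds psiK partialSum)
open FA.ArtinHooley (fieldSize FieldRH)
open scoped Real Classical

namespace FA.DedekindExplicit

variable (K : Type u) [Field K] [NumberField K]

theorem scale_bounds : 0.69 < discScale K ∧ discLog K ≤ discScale K ∧
    (finrank ℚ K : ℝ) ≤ 4 * discScale K ∧ height K 0 ≤ 11 * discScale K := by
  have hl2 : 0.69 < Real.log 2 := lt_trans (by norm_num) Real.log_two_gt_d9
  have hD := discLog_nonneg K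
  have hn := finrank_le_discLog K
  have h3 : Real.log 3 ≤ 2 := by
    linarith [Real.log_le_sub_one_of_pos (show (0 : ℝ) < 3 by norm_num)]
  have hn2 := mul_le_mul_of_nonneg_left h3 (Nat.cast_nonneg (finrank ℚ K) : (0 : ℝ) ≤ _)
  rw [FA.DedekindZF.height, abs_zero, zero_add, ← discLog, discScale_eq]
  refine ⟨by linarith, by linarith, by linarith, by linarith⟩

/-- **The zero sum on the hypothesis of Riemann.** -/
theorem exists_norm_zero_sum : ∃ C, 0 ≤ C ∧ ∀ (K : Type u) [Field K] [NumberField K],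
    FieldRH K → ∀ x : ℝ, 1 ≤ x →
      ‖∑' ρ, (xiMult K ρ : ℂ) * rawKer x ρ‖ ≤ C * height K 0 * (x * √x) := by
  obtain ⟨C, hC, h⟩ := exists_tail_sum.{u}
  refine ⟨9 * C, by positivity, fun K _ _ hRH x hx => ?_⟩
  refine (norm_tsum_le_tsum_norm (summable_rawKer K hx)).trans (Real.tsum_le_of_sum_le
    (fun ρ => norm_nonneg _) fun S => ?_)
  refine (Finset.sum_le_sum (g := fun ρ => 9 * (x * √x) *
    ((xiMult K ρ : ℝ) / (1 + |ρ.im|) ^ 2)) fun ρ _ => ?_).trans ?_
  · by_cases hm : xiMult K ρ = 0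
    · simp [hm]
    obtain ⟨hρ, h0, -⟩ := strip_of_mult K hm
    have hz := zerosLeftOf_of_RH K hRH
    have r1 := hz.one_sub_le hρ
    have g0 : 1 / 2 ≤ ‖ρ‖ := le_trans (by linarith) (Complex.re_le_norm ρ)
    have g1 : 1 / 2 ≤ ‖ρ + 1‖ := le_trans (by rw [add_re, one_re]; linarith) (re_le_norm _)
    rw [norm_mul, Complex.norm_natCast, show 9 * (x * √x) *
      ((xiMult K ρ : ℝ) / (1 + |ρ.im|) ^ 2) =
        xiMult K ρ * (9 * (x * √x) / (1 + |ρ.im|) ^ 2) by ring]
    refine mul_le_mul_of_nonneg_left ((norm_rawKer_le g0 g1 (by linarith)).trans ?_)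
      (Nat.cast_nonneg _)
    refine div_le_div_of_nonneg_right (mul_le_mul_of_nonneg_left ?_ (by norm_num)) (by positivity)
    rw [Real.sqrt_eq_rpow, ← Real.rpow_one_add' (by linarith) (by norm_num)]
    exact Real.rpow_le_rpow_of_exponent_le hx (by linarith [hz ρ hρ])
  · rw [← Finset.mul_sum]
    refine (mul_le_mul_of_nonneg_left (h K 0 S fun ρ _ => by
      rw [Nat.cast_zero]; exact abs_nonneg _) (by positivity)).trans (le_of_eq ?_)
    rw [Nat.cast_zero]
    ring

/-- **The least unramified prime of degree one on the hypothesis of Riemann.** -/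
theorem exists_degree_one_prime : ∃ A : ℝ, 0 < A ∧ ∀ (K : Type u) [Field K] [NumberField K],
    FieldRH K → ∃ (p : ℕ) (v : HeightOneSpectrum (𝓞 K)), p.Prime ∧ ¬ (p : ℤ) ∣ discr K ∧
      absNorm v.asIdeal = p ∧ (p : ℝ) ≤ A * discScale K ^ 2 := by
  obtain ⟨Cz, hCz, hzero⟩ := exists_norm_zero_sum.{u}
  obtain ⟨Cc, hCc, hcoef⟩ := exists_norm_linCoef.{u}
  obtain ⟨Cl, hCl, hleft⟩ := exists_norm_leftInt.{u}
  obtain ⟨Cp, hpsi⟩ := Chebyshev.psi_sub_theta_le_mul_sqrt
  obtain ⟨R, hR⟩ : ∃ R : ℝ, R = 2 * (22 * Cc + 8 + 11 * Cz + 11 * Cl + 4 * |Cp| + 5) :=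
    ⟨_, rfl⟩
  have hR1 : 10 ≤ R := by rw [hR]; linarith [abs_nonneg Cp]
  refine ⟨R ^ 2, by positivity, fun K _ _ hRH => ?_⟩
  obtain ⟨S, hS⟩ : ∃ S, S = discScale K := ⟨_, rfl⟩
  obtain ⟨hS0, hDS, hn4, hH⟩ := scale_bounds K
  rw [← hS] at hS0 hDS hn4 hH ⊢
  obtain ⟨r, hr⟩ : ∃ r, r = R * S := ⟨_, rfl⟩
  obtain ⟨x, hx⟩ : ∃ x, x = r ^ 2 := ⟨_, rfl⟩
  rw [show R ^ 2 * S ^ 2 = x by rw [hx, hr]; ring]
  have hr2 : 2 ≤ r := by rw [hr]; nlinarith
  have hx1 : 1 ≤ x := by rw [hx]; nlinarith
  have hsx : √x = r := by rw [hx, Real.sqrt_sq (by linarith)]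
  by_contra hno
  push Not at hno
  have hD := discLog_nonneg K
  have hn0 : (0 : ℝ) ≤ finrank ℚ K := Nat.cast_nonneg _
  have hψ : psiK K x ≤ finrank ℚ K * (|Cp| * r + discLog K) := by
    refine (psiK_le_of_no_degree_one K hx1 fun p hp hpx hd v hv =>
      absurd hpx (not_le.2 (hno p v hp hd hv))).trans (mul_le_mul_of_nonneg_left ?_ hn0)
    have := hpsi x
    rw [hsx] at this
    linarith [mul_le_mul_of_nonneg_right (le_abs_self Cp) (show 0 ≤ r by linarith)]
  have hup : momentSum (mangoldtK K) x ≤ x * psiK K x := by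
    have h := (momentSum_sub_bounds (f := mangoldtK K) (fun n _ => mangoldtK_nonneg K n)
      le_rfl (show 0 ≤ x by linarith)).2
    rw [sub_zero, show momentSum (mangoldtK K) 0 = 0 by simp [momentSum], sub_zero] at h
    exact h
  have hlow : x ^ 2 / 2 - (22 * Cc * S * x + 4 * S * (x * (2 * r)) + 11 * Cz * S * (x * r) +
      11 * Cl * S * r) ≤ momentSum (mangoldtK K) x := by
    have h := congrArg Complex.re (momentSum_eq K hx1)
    simp only [add_re, sub_re, ← ofReal_pow, re_ofReal_mul, div_ofNat_re, ofReal_re,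
      mul_comm (linCoef K)] at h
    have c1 := (abs_re_le_norm (linCoef K)).trans
      ((hcoef K (1 / 2) le_rfl (by norm_num) (zerosLeftOf_of_RH K hRH)))
    have z1 := (abs_re_le_norm _).trans (hzero K hRH x hx1)
    have l1 := (abs_re_le_norm _).trans (hleft K x (by linarith))
    rw [hsx] at z1 l1
    have hlog : Real.log x ≤ 2 * r := by
      rw [hx, Real.log_pow]
      push_cast
      linarith [Real.log_le_self (show 0 ≤ r by linarith)]
    have u1 : unitCount K * (x * Real.log x) ≤ 4 * S * (x * (2 * r)) :=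
      mul_le_mul (((le_abs_self _).trans (abs_unitCount_le K)).trans hn4)
        (mul_le_mul_of_nonneg_left hlog (by linarith))
        (mul_nonneg (by linarith) (Real.log_nonneg hx1)) (by linarith)
    have c2 : |(linCoef K).re| * x ≤ 22 * Cc * S * x := by
      refine mul_le_mul_of_nonneg_right (c1.trans ?_) (by linarith)
      have := mul_le_mul_of_nonneg_left hH hCc
      norm_num
      linarith
    have z2 : Cz * height K 0 * (x * r) ≤ 11 * Cz * S * (x * r) := by
      have := mul_le_mul_of_nonneg_left hH hCz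
      exact mul_le_mul_of_nonneg_right (by linarith) (by positivity)
    have l2 : Cl * fieldSize K * r ≤ 11 * Cl * S * r := by
      have := mul_le_mul_of_nonneg_left ((fieldSize_le_height K 0).trans hH) hCl
      exact mul_le_mul_of_nonneg_right (by linarith) (by linarith)
    have c3 := mul_le_mul_of_nonneg_right (neg_abs_le (linCoef K).re) (show 0 ≤ x by linarith)
    rw [abs_le] at z1 l1
    linarith
  have hnD : (finrank ℚ K : ℝ) * (|Cp| * r + discLog K) ≤ 4 * S * (|Cp| * r + S) :=
    mul_le_mul hn4 (by linarith) (by positivity) (by linarith)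
  have e1 : x * (4 * S * (|Cp| * r + S)) ≤ (4 * |Cp| + 4) * (S * (x * r)) := by
    have : S ≤ r := by rw [hr]; exact le_mul_of_one_le_left (by linarith) (by linarith)
    have := mul_le_mul_of_nonneg_left this (show 0 ≤ x * (4 * S) by positivity)
    linarith
  have e2 : 22 * Cc * S * x + 11 * Cl * S * r ≤ (22 * Cc + 11 * Cl) * (S * (x * r)) := by
    have h1 := mul_le_mul_of_nonneg_left (show x * 1 ≤ x * r from
      mul_le_mul_of_nonneg_left (by linarith) (by linarith)) (show 0 ≤ 22 * Cc * S by positivity)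
    have h2 := mul_le_mul_of_nonneg_left (show 1 * r ≤ x * r from
      mul_le_mul_of_nonneg_right hx1 (by linarith)) (show 0 ≤ 11 * Cl * S by positivity)
    linarith
  have e3 : R * (S * (x * r)) = x ^ 2 := by
    rw [hx, hr]
    ring
  have hpos : 0 < S * (x * r) := by positivity
  have := mul_le_mul_of_nonneg_left (hψ.trans hnD) (show 0 ≤ x by linarith)
  rw [hR] at e3
  linarith

/-- **The least prime splitting completely on the hypothesis of Riemann.** -/
theorem exists_split_prime : ∃ A : ℝ, 0 < A ∧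
    ∀ (K : Type u) [Field K] [NumberField K] [IsGalois ℚ K], FieldRH K →
      ∃ p : ℕ, p.Prime ∧ ¬ (p : ℤ) ∣ discr K ∧
        ((span {(p : ℤ)}).primesOver (𝓞 K)).ncard = finrank ℚ K ∧
        (p : ℝ) ≤ A * discScale K ^ 2 := by
  obtain ⟨A, hA, h⟩ := exists_degree_one_prime.{u}
  refine ⟨A, hA, fun K _ _ _ hRH => ?_⟩
  obtain ⟨p, v, hp, hd, hv, hle⟩ := h K hRH
  exact ⟨p, hp, hd, FA.DedekindPIT.split_of_norm_prime K hp hd v hv, hle⟩

end FA.DedekindExplicit

end
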