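import Fermat.Agent.DedekindExplicit.Formula

/-!
# `ψ_K` from the explicit formula

If the zeros have `re ≤ β < 1`, then `ψ_K x = x + O_β (x^β log x (log |d| + n log x))` for `x ≥ 2`:
the moment is differenced with step `1`, the zeros split at height `x`.
-/

set_option autoImplicit false
set_option linter.style.haveILetI false

noncomputable section

universe u

open NumberField InfinitePlace Module Complex Filter Topology Set MeasureTheory
open FA.HeckeBS FA.HeckeFE FA.DedekindZF FA.DedekindZeroCount FA.DedekindHadamard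
open FA.DedekindPIT (mangoldtK mangoldtK_nonneg momentSum momentSum_sub_bounds psiK partialSum)
open FA.ArtinHooley (fieldSize FieldRH)
open scoped Real Classical

namespace FA.DedekindExplicit

variable (K : Type u) [Field K] [NumberField K]

/-- The zeros of `ξ_K` have `re ≤ β`. -/
def ZerosLeftOf (β : ℝ) : Prop := ∀ ρ, xiFun K ρ = 0 → ρ.re ≤ β

theorem zerosLeftOf_of_RH (hRH : FieldRH K) : ZerosLeftOf K (1 / 2) := fun ρ hρ => by
  obtain ⟨h, h0, h1, -⟩ := (mem_stripZeros_iff K (T := |ρ.im|)).2 ⟨hρ, le_rfl⟩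
  exact le_of_eq (hRH (cleared K) (differentiable_cleared K) (fun s hs => cleared_spec K hs) ρ h
    h0 h1)

variable {K}

theorem ZerosLeftOf.one_sub_le {β : ℝ} (h : ZerosLeftOf K β) {ρ : ℂ} (hρ : xiFun K ρ = 0) :
    1 - β ≤ ρ.re := by
  have := h (1 - ρ) (by rw [xiFun_one_sub, hρ])
  rw [sub_re, one_re] at this
  linarith

variable (K)

theorem fieldSize_le_height (t : ℝ) : fieldSize K ≤ height K t := by
  have := le_mul_of_one_le_right (Nat.cast_nonneg (finrank ℚ K) : (0 : ℝ) ≤ _) (one_le_log t)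
  rw [fieldSize, height]
  linarith

/-- **The constant of the explicit formula.** -/
theorem exists_norm_linCoef : ∃ C, 0 ≤ C ∧ ∀ (K : Type u) [Field K] [NumberField K] (β : ℝ),
    1 / 2 ≤ β → β < 1 → ZerosLeftOf K β → ‖linCoef K‖ ≤ C * height K 0 / (1 - β) := by
  obtain ⟨C, hC, h⟩ := exists_norm_xiLog.{u}
  refine ⟨C + 24, by positivity, fun K _ _ β hβ hβ1 hz => ?_⟩
  have hx := h K 0 (1 - β) (by simp) (by simp) (by linarith) (by linarith) fun ρ hρ => by
    rw [zero_sub, norm_neg]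
    exact le_trans (hz.one_sub_le hρ) (Complex.re_le_norm ρ)
  have hr := norm_regPart_le K (s := 0) (by simp) (by simp)
  rw [zero_im] at hx hr
  have hH := one_le_height K 0
  have hu : ‖(unitCount K : ℂ)‖ ≤ height K 0 := by
    rw [Complex.norm_real, Real.norm_eq_abs]
    exact (abs_unitCount_le K).trans (finrank_le_height K 0)
  have hd : height K 0 ≤ height K 0 / (1 - β) :=
    le_div_self (by linarith) (by linarith) (by linarith)
  rw [linCoef, show (C + 24) * height K 0 / (1 - β) =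
    C * height K 0 / (1 - β) + 24 * (height K 0 / (1 - β)) by ring]
  refine (norm_add_le _ _).trans ((add_le_add ((norm_sub_le _ _).trans (add_le_add
    (norm_sub_le _ _) le_rfl)) hu).trans ?_)
  rw [norm_one]
  linarith

theorem norm_rawKer_diff_le {ρ : ℂ} (h0 : 0 < ρ.re) {β : ℝ} (hβ : ρ.re ≤ β) (hβ1 : β ≤ 1)
    {y : ℝ} (hy : 1 ≤ y) : ‖rawKer (y + 1) ρ - rawKer y ρ‖ ≤ 2 * y ^ β / ‖ρ‖ := by
  have hρ : ρ ≠ 0 := fun h => by simp [h] at h0
  have hint := integral_cpow (a := y) (b := y + 1) (r := ρ) (Or.inl (by linarith))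
  have e : rawKer (y + 1) ρ - rawKer y ρ = ρ⁻¹ * ∫ x in y..(y + 1), (x : ℂ) ^ ρ := by
    rw [hint, rawKer, rawKer]
    push_cast
    field_simp
  have hb : ‖∫ x in y..(y + 1), (x : ℂ) ^ ρ‖ ≤ 2 * y ^ β * |y + 1 - y| := by
    refine intervalIntegral.norm_integral_le_of_norm_le_const fun x hx => ?_
    rw [uIoc_of_le (by linarith)] at hx
    rw [norm_cpow_eq_rpow_re_of_pos (by linarith [hx.1])]
    refine (Real.rpow_le_rpow_of_exponent_le (by linarith [hx.1]) hβ).trans ?_
    refine (Real.rpow_le_rpow (by linarith [hx.1]) (show x ≤ 2 * y by linarith [hx.2])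
      (by linarith)).trans ?_
    rw [Real.mul_rpow (by norm_num) (by linarith)]
    exact mul_le_mul_of_nonneg_right (Real.rpow_le_self_of_one_le (by norm_num) hβ1)
      (Real.rpow_nonneg (by linarith) _)
  rw [show |y + 1 - y| = 1 by simp, mul_one] at hb
  rw [e, norm_mul, norm_inv, mul_comm, ← div_eq_mul_inv]
  exact div_le_div_of_nonneg_right hb (norm_nonneg ρ)

theorem norm_rawKer_diff_far {ρ : ℂ} (h0 : 0 < ρ.re) {β : ℝ} (hβ : ρ.re ≤ β) (hβ1 : β ≤ 1)
    (hi : 1 ≤ |ρ.im|) {y : ℝ} (hy : 1 ≤ y) :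
    ‖rawKer (y + 1) ρ - rawKer y ρ‖ ≤ 45 * y ^ (β + 1) / (1 + |ρ.im|) ^ 2 := by
  have g : ∀ z : ℂ, z.im = ρ.im → 1 / 2 ≤ ‖z‖ := fun z hz => by
    have := abs_im_le_norm z
    rw [hz] at this
    linarith
  have g0 := g ρ rfl
  have g1 := g (ρ + 1) (by simp)
  have k : ∀ z, 1 ≤ z → ‖rawKer z ρ‖ ≤ 9 * z ^ (β + 1) / (1 + |ρ.im|) ^ 2 := fun z hz =>
    (norm_rawKer_le g0 g1 (by linarith)).trans (div_le_div_of_nonneg_right
      (mul_le_mul_of_nonneg_left (Real.rpow_le_rpow_of_exponent_le hz (by linarith))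
        (by norm_num)) (by positivity))
  have h4 : (y + 1) ^ (β + 1) ≤ 4 * y ^ (β + 1) := by
    refine (Real.rpow_le_rpow (by linarith) (show y + 1 ≤ 2 * y by linarith) (by linarith)).trans ?_
    rw [Real.mul_rpow (by norm_num) (by linarith)]
    refine mul_le_mul_of_nonneg_right ?_ (Real.rpow_nonneg (by linarith) _)
    refine (Real.rpow_le_rpow_of_exponent_le (by norm_num) (show β + 1 ≤ (2 : ℕ) by
      push_cast; linarith)).trans ?_
    rw [Real.rpow_natCast]
    norm_num
  refine (norm_sub_le _ _).trans ((add_le_add (k _ (by linarith)) (k y hy)).trans ?_)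
  rw [← add_div]
  exact div_le_div_of_nonneg_right (by linarith) (by positivity)

/-- **The zeros in a unit step of the moment.** -/
theorem exists_zero_diff : ∃ C, 0 ≤ C ∧ ∀ (K : Type u) [Field K] [NumberField K] (β : ℝ),
    1 / 2 ≤ β → β < 1 → ZerosLeftOf K β → ∀ y : ℝ, 1 ≤ y →
      ‖(∑' ρ, (xiMult K ρ : ℂ) * rawKer (y + 1) ρ) - ∑' ρ, (xiMult K ρ : ℂ) * rawKer y ρ‖ ≤
        C / (1 - β) * (y ^ β * height K (y + 1) * (1 + Real.log (y + 2))) := by
  obtain ⟨H, hH, hhead⟩ := exists_head_sum.{u}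
  obtain ⟨W, hW, htail⟩ := exists_tail_sum.{u}
  refine ⟨4 * H + 45 * W, by positivity, fun K _ _ β hβ hβ1 hz y hy => ?_⟩
  have hd : 0 < 1 - β := by linarith
  obtain ⟨B, hB⟩ : ∃ B, B = y ^ β * height K (y + 1) * (1 + Real.log (y + 2)) := ⟨_, rfl⟩
  rw [← hB]
  have hy0 : 0 < y := by linarith
  have hlog : 0 ≤ Real.log (y + 2) := Real.log_nonneg (by linarith)
  have hyb : 0 ≤ y ^ β := Real.rpow_nonneg hy0.le _
  have hh1 := one_le_height K (y + 1)
  obtain ⟨N, hN⟩ : ∃ N : ℕ, N = ⌊y⌋₊ + 1 := ⟨_, rfl⟩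
  have hN1 : (N : ℝ) ≤ y + 1 := by
    rw [hN]; push_cast; linarith [Nat.floor_le hy0.le]
  have hN2 : y < N := by
    rw [hN]; push_cast; exact Nat.lt_floor_add_one y
  have hHN : height K N ≤ height K (y + 1) := height_mono K (by
    rw [Nat.abs_cast, abs_of_nonneg (by linarith)]; exact hN1)
  have hLN : Real.log ((N : ℝ) + 1) ≤ Real.log (y + 2) :=
    Real.log_le_log (by positivity) (by linarith)
  have hsy := (summable_rawKer K hy).of_norm
  have hsy1 := (summable_rawKer K (show 1 ≤ y + 1 by linarith)).of_norm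
  rw [← hsy1.tsum_sub hsy]
  refine (norm_tsum_le_tsum_norm (hsy1.sub hsy).norm).trans (Real.tsum_le_of_sum_le
    (fun ρ => norm_nonneg _) fun S => ?_)
  simp only [← mul_sub, norm_mul, Complex.norm_natCast]
  rw [← Finset.sum_filter_add_sum_filter_not S (fun ρ : ℂ => |ρ.im| ≤ N)]
  have b1 : ∑ ρ ∈ S.filter (fun ρ : ℂ => |ρ.im| ≤ N),
      (xiMult K ρ : ℝ) * ‖rawKer (y + 1) ρ - rawKer y ρ‖ ≤ 4 * H / (1 - β) * B := by
    refine (Finset.sum_le_sum (g := fun ρ => 4 * y ^ β / (1 - β) *
      ((xiMult K ρ : ℝ) / (1 + |ρ.im|))) fun ρ _ => ?_).trans ?_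
    · by_cases hm : xiMult K ρ = 0
      · simp [hm]
      obtain ⟨hρ, h0, h1⟩ := strip_of_mult K hm
      have g1 := le_trans (hz.one_sub_le hρ) (Complex.re_le_norm ρ)
      have g2 : (1 - β) * (1 + |ρ.im|) ≤ 2 * ‖ρ‖ := by
        have := mul_le_of_le_one_left (abs_nonneg ρ.im) (show 1 - β ≤ 1 by linarith)
        linarith [abs_im_le_norm ρ]
      rw [show 4 * y ^ β / (1 - β) * ((xiMult K ρ : ℝ) / (1 + |ρ.im|)) =
        xiMult K ρ * (4 * y ^ β / ((1 - β) * (1 + |ρ.im|))) by field_simp]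
      refine mul_le_mul_of_nonneg_left ((norm_rawKer_diff_le h0 (hz ρ hρ) hβ1.le hy).trans ?_)
        (Nat.cast_nonneg _)
      rw [div_le_div_iff₀ (by linarith) (by positivity)]
      linarith [mul_le_mul_of_nonneg_left g2 (show 0 ≤ 2 * y ^ β by linarith)]
    · rw [← Finset.mul_sum]
      refine (mul_le_mul_of_nonneg_left (hhead K N _ fun ρ hρ => (Finset.mem_filter.1 hρ).2)
        (by positivity)).trans ?_
      rw [hB, show 4 * H / (1 - β) * (y ^ β * height K (y + 1) * (1 + Real.log (y + 2))) =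
        4 * y ^ β / (1 - β) * (H * height K (y + 1) * (1 + Real.log (y + 2))) by ring]
      refine mul_le_mul_of_nonneg_left ?_ (by positivity)
      exact mul_le_mul (mul_le_mul_of_nonneg_left hHN hH) (by linarith)
        (add_nonneg zero_le_one (Real.log_nonneg (le_add_of_nonneg_left (Nat.cast_nonneg N))))
        (mul_nonneg hH (by linarith))
  have b2 : ∑ ρ ∈ S.filter (fun ρ : ℂ => ¬|ρ.im| ≤ N),
      (xiMult K ρ : ℝ) * ‖rawKer (y + 1) ρ - rawKer y ρ‖ ≤ 45 * W / (1 - β) * B := by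
    refine (Finset.sum_le_sum (g := fun ρ => 45 * y ^ (β + 1) *
      ((xiMult K ρ : ℝ) / (1 + |ρ.im|) ^ 2)) fun ρ hρ => ?_).trans ?_
    · by_cases hm : xiMult K ρ = 0
      · simp [hm]
      obtain ⟨hρ', h0, -⟩ := strip_of_mult K hm
      have hi : 1 ≤ |ρ.im| := by
        have := lt_of_not_ge (Finset.mem_filter.1 hρ).2
        linarith
      rw [show 45 * y ^ (β + 1) * ((xiMult K ρ : ℝ) / (1 + |ρ.im|) ^ 2) =
        xiMult K ρ * (45 * y ^ (β + 1) / (1 + |ρ.im|) ^ 2) by ring]
      exact mul_le_mul_of_nonneg_left (norm_rawKer_diff_far h0 (hz ρ hρ') hβ1.le hi hy)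
        (Nat.cast_nonneg _)
    · rw [← Finset.mul_sum]
      refine (mul_le_mul_of_nonneg_left (htail K N _ fun ρ hρ =>
        (lt_of_not_ge (Finset.mem_filter.1 hρ).2).le) (by positivity)).trans ?_
      have e1 : W * height K N / ((N : ℝ) + 1) ≤ W * height K (y + 1) / y :=
        div_le_div₀ (mul_nonneg hW (by linarith)) (mul_le_mul_of_nonneg_left hHN hW) hy0
          (by linarith)
      refine (mul_le_mul_of_nonneg_left e1 (by positivity)).trans ?_
      rw [hB, show 45 * y ^ (β + 1) * (W * height K (y + 1) / y) =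
        45 * W * (y ^ β * height K (y + 1)) by
          rw [Real.rpow_add_one hy0.ne']; field_simp]
      rw [show 45 * W / (1 - β) * (y ^ β * height K (y + 1) * (1 + Real.log (y + 2))) =
        45 * W * (y ^ β * height K (y + 1)) * ((1 + Real.log (y + 2)) / (1 - β)) by ring]
      refine le_mul_of_one_le_right (mul_nonneg (by positivity) (mul_nonneg hyb (by linarith))) ?_
      rw [le_div_iff₀ hd]
      linarith
  rw [show (4 * H + 45 * W) / (1 - β) * B = 4 * H / (1 - β) * B + 45 * W / (1 - β) * B by ring]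
  exact add_le_add b1 b2

theorem mul_log_step_le {y : ℝ} (hy : 1 ≤ y) :
    |(y + 1) * Real.log (y + 1) - y * Real.log y| ≤ Real.log (y + 1) + 1 := by
  have h0 : 0 ≤ Real.log y := Real.log_nonneg hy
  have h1 : Real.log y ≤ Real.log (y + 1) := Real.log_le_log (by linarith) (by linarith)
  have h2 : y * (Real.log (y + 1) - Real.log y) ≤ 1 := by
    rw [← Real.log_div (by linarith) (by linarith)]
    have := mul_le_mul_of_nonneg_left (Real.log_le_sub_one_of_pos
      (show 0 < (y + 1) / y by positivity)) (show 0 ≤ y by linarith)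
    rwa [show y * ((y + 1) / y - 1) = 1 by field_simp; ring] at this
  have h3 := mul_nonneg (show 0 ≤ y by linarith) (sub_nonneg.2 h1)
  rw [abs_le]
  constructor <;> linarith

/-- **A unit step of the moment.** -/
theorem exists_moment_step : ∃ C, 0 ≤ C ∧ ∀ (K : Type u) [Field K] [NumberField K] (β : ℝ),
    1 / 2 ≤ β → β < 1 → ZerosLeftOf K β → ∀ y : ℝ, 1 ≤ y →
      |momentSum (mangoldtK K) (y + 1) - momentSum (mangoldtK K) y - y| ≤
        C / (1 - β) * (y ^ β * height K (y + 1) * (1 + Real.log (y + 2))) := by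
  obtain ⟨Cz, hCz, hzero⟩ := exists_zero_diff.{u}
  obtain ⟨Cc, hCc, hcoef⟩ := exists_norm_linCoef.{u}
  obtain ⟨Cl, hCl, hleft⟩ := exists_norm_leftInt.{u}
  refine ⟨Cz + Cc + 3 * Cl + 2, by positivity, fun K _ _ β hβ hβ1 hz y hy => ?_⟩
  obtain ⟨B, hB⟩ : ∃ B, B = y ^ β * height K (y + 1) * (1 + Real.log (y + 2)) := ⟨_, rfl⟩
  have hd : 0 < 1 - β := by linarith
  have hh1 := one_le_height K (y + 1)
  have hl2 : 0 ≤ Real.log (y + 2) := Real.log_nonneg (by linarith)
  have hyb : √y ≤ y ^ β := by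
    rw [Real.sqrt_eq_rpow]
    exact Real.rpow_le_rpow_of_exponent_le hy hβ
  have hy1 : 1 ≤ y ^ β := Real.one_le_rpow hy (by linarith)
  have hHB : height K (y + 1) * (1 + Real.log (y + 2)) ≤ B := by
    rw [hB, mul_assoc]
    exact le_mul_of_one_le_left (mul_nonneg (by linarith) (by linarith)) hy1
  have hB1 : height K (y + 1) ≤ B := (le_mul_of_one_le_right (by linarith) (by linarith)).trans hHB
  have hBd : B ≤ B / (1 - β) := le_div_self (by linarith) hd (by linarith)
  have z1 := hzero K β hβ hβ1 hz y hy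
  rw [← hB] at z1
  have c1 : ‖linCoef K‖ ≤ Cc * (B / (1 - β)) := by
    refine (hcoef K β hβ hβ1 hz).trans ?_
    rw [mul_div_assoc]
    have : height K 0 ≤ B := (height_mono K (by simp)).trans hB1
    exact mul_le_mul_of_nonneg_left (div_le_div_of_nonneg_right this hd.le) hCc
  have l1 : ‖leftInt K (y + 1)‖ + ‖leftInt K y‖ ≤ 3 * Cl * B := by
    have e : √(y + 1) ≤ 2 * √y := by
      refine (Real.sqrt_le_sqrt (show y + 1 ≤ 2 ^ 2 * y by linarith)).trans (le_of_eq ?_)
      rw [Real.sqrt_mul (by norm_num), Real.sqrt_sq (by norm_num)]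
    obtain ⟨hF1, -⟩ := FA.ArtinHooley.one_le_fieldSize (K := K)
    have f1 : fieldSize K * √y ≤ B := by
      refine le_trans ?_ (hB ▸ le_mul_of_one_le_right
        (mul_nonneg (by linarith) (by linarith)) (by linarith) : y ^ β * height K (y + 1) ≤ B)
      rw [mul_comm]
      exact mul_le_mul hyb (fieldSize_le_height K _) (by linarith) (by linarith)
    have := mul_le_mul_of_nonneg_left e (mul_nonneg hCl (by linarith : 0 ≤ fieldSize K))
    have := mul_le_mul_of_nonneg_left f1 hCl
    have := hleft K (y + 1) (by linarith)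
    have := hleft K y (by linarith)
    linarith
  have u1 : |unitCount K| * |(y + 1) * Real.log (y + 1) - y * Real.log y| ≤ B := by
    refine (mul_le_mul ((abs_unitCount_le K).trans (finrank_le_height K (y + 1)))
      ((mul_log_step_le hy).trans (show _ ≤ 1 + Real.log (y + 2) from ?_)) (abs_nonneg _)
      (by linarith)).trans hHB
    linarith [Real.log_le_log (show 0 < y + 1 by linarith) (show y + 1 ≤ y + 2 by linarith)]
  have e : ((momentSum (mangoldtK K) (y + 1) - momentSum (mangoldtK K) y - y : ℝ) : ℂ) =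
      ((1 / 2 : ℝ) : ℂ) + linCoef K -
        ((unitCount K * ((y + 1) * Real.log (y + 1) - y * Real.log y) : ℝ) : ℂ) -
          ((∑' ρ, (xiMult K ρ : ℂ) * rawKer (y + 1) ρ) - ∑' ρ, (xiMult K ρ : ℂ) * rawKer y ρ) +
            (leftInt K (y + 1) - leftInt K y) := by
    push_cast [momentSum_eq K hy, momentSum_eq K (show 1 ≤ y + 1 by linarith)]
    ring
  have hn := congrArg (fun z : ℂ => ‖z‖) e
  simp only [Complex.norm_real, Real.norm_eq_abs] at hn
  rw [hn, show (Cz + Cc + 3 * Cl + 2) / (1 - β) * (y ^ β * height K (y + 1) *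
    (1 + Real.log (y + 2))) = Cz / (1 - β) * B + Cc * (B / (1 - β)) + (3 * Cl + 2) *
      (B / (1 - β)) by rw [hB]; ring]
  refine (norm_add_le _ _).trans ((add_le_add ((norm_sub_le _ _).trans (add_le_add
    ((norm_sub_le _ _).trans (add_le_add (norm_add_le _ _) le_rfl)) z1))
      (norm_sub_le _ _)).trans ?_)
  simp only [Complex.norm_real, Real.norm_eq_abs, abs_mul]
  have := mul_le_mul_of_nonneg_left hBd (show 0 ≤ 3 * Cl + 1 by linarith)
  have : |(1 / 2 : ℝ)| ≤ B / (1 - β) := by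
    rw [abs_of_pos (by norm_num)]
    linarith
  linarith

theorem height_step_le {x : ℝ} (hx : 2 ≤ x) {y : ℝ} (h1 : 1 ≤ y) (h2 : y ≤ x) :
    height K (y + 1) * (1 + Real.log (y + 2)) ≤
      20 * (Real.log x * (discLog K + finrank ℚ K * Real.log x)) := by
  have hl : 0.69 ≤ Real.log x :=
    le_trans (by linarith [Real.log_two_gt_d9]) (Real.log_le_log two_pos hx)
  have hn : (1 : ℝ) ≤ finrank ℚ K := Nat.one_le_cast.2 finrank_pos
  have hd := discLog_nonneg K
  have a1 : Real.log (|y + 1| + 3) ≤ 3 * Real.log x := by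
    rw [abs_of_nonneg (by linarith), show 3 * Real.log x = Real.log (x ^ 3) by
      rw [Real.log_pow]; norm_num]
    exact Real.log_le_log (by linarith) (by nlinarith [mul_le_mul hx hx zero_le_two (by linarith)])
  have a2 : 1 + Real.log (y + 2) ≤ 4 * Real.log x := by
    have : Real.log (y + 2) ≤ 2 * Real.log x := by
      rw [show 2 * Real.log x = Real.log (x ^ 2) by rw [Real.log_pow]; norm_num]
      exact Real.log_le_log (by linarith) (by nlinarith)
    linarith
  have a3 : height K (y + 1) ≤ 5 * (discLog K + finrank ℚ K * Real.log x) := by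
    have := mul_le_mul_of_nonneg_left a1 (show (0 : ℝ) ≤ finrank ℚ K by linarith)
    have : 0.69 ≤ (finrank ℚ K : ℝ) * Real.log x := by nlinarith
    rw [height, ← discLog]
    linarith
  calc height K (y + 1) * (1 + Real.log (y + 2))
      ≤ 5 * (discLog K + finrank ℚ K * Real.log x) * (4 * Real.log x) :=
        mul_le_mul a3 a2 (add_nonneg zero_le_one (Real.log_nonneg (by linarith))) (by positivity)
    _ = _ := by ring

/-- **`ψ_K` in terms of the real parts of the zeros.** -/
theorem exists_psiK_sharp : ∃ A, 0 ≤ A ∧ ∀ (K : Type u) [Field K] [NumberField K] (β : ℝ),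
    1 / 2 ≤ β → β < 1 → ZerosLeftOf K β → ∀ x : ℝ, 2 ≤ x →
      |psiK K x - x| ≤
        A / (1 - β) * (x ^ β * Real.log x * (discLog K + finrank ℚ K * Real.log x)) := by
  obtain ⟨C, hC, h⟩ := exists_moment_step.{u}
  refine ⟨20 * C + 3, by positivity, fun K _ _ β hβ hβ1 hz x hx => ?_⟩
  have hd : 0 < 1 - β := by linarith
  obtain ⟨M, hM⟩ : ∃ M, M = x ^ β * Real.log x * (discLog K + finrank ℚ K * Real.log x) := ⟨_, rfl⟩
  rw [← hM]
  have hl : 0.69 ≤ Real.log x :=
    le_trans (by linarith [Real.log_two_gt_d9]) (Real.log_le_log two_pos hx)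
  have hn : (1 : ℝ) ≤ finrank ℚ K := Nat.one_le_cast.2 finrank_pos
  have hdl := discLog_nonneg K
  have hx1 : 1 ≤ x ^ β := Real.one_le_rpow (by linarith) (by linarith)
  have hM0 : 0.47 ≤ M := by
    have : 0.69 ≤ discLog K + finrank ℚ K * Real.log x := by nlinarith
    have h1 : 0.47 ≤ Real.log x * (discLog K + finrank ℚ K * Real.log x) := by nlinarith
    rw [hM, mul_assoc]
    exact h1.trans (le_mul_of_one_le_left (by linarith) hx1)
  have hM1 : (1 : ℝ) ≤ 3 / (1 - β) * M := by
    rw [div_mul_eq_mul_div, le_div_iff₀ hd]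
    linarith
  have key : ∀ y, 1 ≤ y → y ≤ x →
      |momentSum (mangoldtK K) (y + 1) - momentSum (mangoldtK K) y - y| ≤
        20 * C / (1 - β) * M := fun y h1 h2 => by
    refine (h K β hβ hβ1 hz y h1).trans ?_
    rw [mul_assoc (y ^ β), hM, show 20 * C / (1 - β) *
      (x ^ β * Real.log x * (discLog K + finrank ℚ K * Real.log x)) = C / (1 - β) *
        (x ^ β * (20 * (Real.log x * (discLog K + finrank ℚ K * Real.log x)))) by ring]
    refine mul_le_mul_of_nonneg_left (mul_le_mul (Real.rpow_le_rpow (by linarith) h2 (by linarith))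
      (height_step_le K hx h1 h2) (mul_nonneg (zero_le_one.trans (one_le_height K _))
        (add_nonneg zero_le_one (Real.log_nonneg (by linarith)))) (by linarith)) (by positivity)
  have hf : ∀ n, 1 ≤ n → 0 ≤ mangoldtK K n := fun n _ => mangoldtK_nonneg K n
  have up := (momentSum_sub_bounds hf (show 0 ≤ x by linarith) (show x ≤ x + 1 by linarith)).1
  have down := (momentSum_sub_bounds hf (show 0 ≤ x - 1 by linarith)
    (show x - 1 ≤ x by linarith)).2
  rw [add_sub_cancel_left, one_mul] at up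
  rw [sub_sub_cancel, one_mul] at down
  have k1 := abs_le.1 (key x (by linarith) le_rfl)
  have k2 := abs_le.1 (key (x - 1) (by linarith) (by linarith))
  rw [sub_add_cancel] at k2
  change |partialSum (mangoldtK K) x - x| ≤ _
  rw [add_div, add_mul, abs_le]
  constructor <;> linarith [k1.1, k1.2, k2.1, k2.2]

end FA.DedekindExplicit

end
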