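import Fermat.Agent.DedekindExplicit.ZeroSums
import Fermat.Agent.ExplicitFormula.Contour

/-!
# The residues of `y ^ (s + 1) / (s (s + 1))` against `-ζ_K'/ζ_K`

On `[-1/2, 2] × [-T, T]` they are those at `1`, at the zeros, and at the double pole `0`.
-/

set_option autoImplicit false
set_option linter.style.haveILetI false

noncomputable section

universe u

open NumberField InfinitePlace Module Complex Filter Topology Set MeasureTheory
open FA.HeckeBS FA.HeckeFE FA.DedekindZF FA.DedekindZeroCount FA.DedekindHadamard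
open FA.ExplicitFormula (boxInt boxEdges boxInt_congr boxInt_add boxInt_eq_zero boxInt_residue
  boxInt_multiset_sum boxInt_const_mul interior_not_edge)
open FA.RiemannMangoldt (rootProd rootProd_ne_zero hasDerivAt_rootProd)
open scoped Real Classical

namespace FA.DedekindExplicit

variable (K : Type u) [Field K] [NumberField K]

/-- `y ^ (s + 1) / (s (s + 1))`. -/
def rawKer (y : ℝ) (s : ℂ) : ℂ := (y : ℂ) ^ (s + 1) / (s * (s + 1))

/-- `y ^ (s + 1) / (s + 1)`. -/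
def powKer (y : ℝ) (s : ℂ) : ℂ := (y : ℂ) ^ (s + 1) / (s + 1)

theorem rawKer_eq (y : ℝ) (s : ℂ) : rawKer y s = powKer y s / s := by
  rw [rawKer, powKer, div_div, mul_comm (s + 1)]

theorem hasDerivAt_powKer {y : ℝ} (hy : 0 < y) {s : ℂ} (hs : s + 1 ≠ 0) :
    HasDerivAt (powKer y)
      (((y : ℂ) ^ (s + 1) * Real.log y * (s + 1) - (y : ℂ) ^ (s + 1)) / (s + 1) ^ 2) s := by
  have h1 := ((hasDerivAt_id' s).add_const (1 : ℂ)).const_cpow (c := (y : ℂ))
    (Or.inl (ofReal_ne_zero.2 hy.ne'))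
  refine (h1.div ((hasDerivAt_id' s).add_const (1 : ℂ)) hs).congr_deriv ?_
  rw [← ofReal_log hy.le]
  ring

theorem differentiableAt_powKer {y : ℝ} (hy : 0 < y) {s : ℂ} (hs : -1 < s.re) :
    DifferentiableAt ℂ (powKer y) s :=
  (hasDerivAt_powKer hy fun h => by
    have := congrArg Complex.re h
    simp at this
    linarith).differentiableAt

theorem powKer_zero (y : ℝ) : powKer y 0 = y := by
  simp [powKer]

theorem powKer_one (y : ℝ) : powKer y 1 = (y : ℂ) ^ 2 / 2 := by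
  rw [powKer, one_add_one_eq_two, cpow_ofNat]

theorem deriv_powKer_zero {y : ℝ} (hy : 0 < y) :
    deriv (powKer y) 0 = ((y * Real.log y - y : ℝ) : ℂ) := by
  rw [(hasDerivAt_powKer hy (s := 0) (by norm_num)).deriv]
  simp

theorem differentiableAt_digamma_right {z : ℂ} (hz : 0 < z.re) :
    DifferentiableAt ℂ digamma z := by
  have hU : IsOpen {w : ℂ | 0 < w.re} := isOpen_lt continuous_const continuous_re
  have hG : DifferentiableOn ℂ Complex.Gamma {w : ℂ | 0 < w.re} := fun w hw =>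
    (Complex.differentiableAt_Gamma w fun k e => by
      have hw' : 0 < w.re := hw
      rw [e, Complex.neg_re, Complex.natCast_re] at hw'
      linarith [Nat.cast_nonneg (α := ℝ) k]).differentiableWithinAt
  have hA : AnalyticAt ℂ Complex.Gamma z := hG.analyticAt (hU.mem_nhds hz)
  rw [digamma_def]
  exact hA.deriv.differentiableAt.div hA.differentiableAt (Complex.Gamma_ne_zero_of_re_pos hz)

theorem differentiableAt_regPart {s : ℂ} (hs : -1 < s.re) :
    DifferentiableAt ℂ (regPart K) s := by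
  have h1 : DifferentiableAt ℂ (fun z : ℂ => digamma (z / 2 + 1)) s :=
    (differentiableAt_digamma_right (z := s / 2 + 1) (by simp; linarith)).comp s (by fun_prop)
  have h2 : DifferentiableAt ℂ (fun z : ℂ => digamma (z + 1)) s :=
    (differentiableAt_digamma_right (z := s + 1) (by simp; linarith)).comp s (by fun_prop)
  unfold regPart
  fun_prop

theorem boxInt_inv_sq {a b T : ℝ} (h : ∀ s ∈ boxEdges a b T, s ≠ 0) :
    boxInt (fun s => (s ^ 2)⁻¹) a b T = 0 := by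
  have hd : ∀ z : ℂ, z ≠ 0 → HasDerivAt (fun w : ℂ => -w⁻¹) (z ^ 2)⁻¹ z := fun z hz => by
    simpa using (hasDerivAt_inv hz).fun_neg
  obtain ⟨b1, b2, b3, b4⟩ := FA.ExplicitFormula.intervalIntegrable_edges
    (F := fun s : ℂ => (s ^ 2)⁻¹) (a := a) (b := b) (T := T) fun s hs =>
      ContinuousAt.inv₀ (by fun_prop) (pow_ne_zero 2 (h s hs))
  have hH : ∀ t : ℝ, (∀ u ∈ uIcc a b, (u : ℂ) + (t : ℂ) * I ≠ 0) →
      IntervalIntegrable (fun u : ℝ => (((u : ℂ) + (t : ℂ) * I) ^ 2)⁻¹) volume a b →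
      (∫ u in a..b, (((u : ℂ) + (t : ℂ) * I) ^ 2)⁻¹) =
        -((b : ℂ) + (t : ℂ) * I)⁻¹ - -((a : ℂ) + (t : ℂ) * I)⁻¹ := fun t hne hi =>
    intervalIntegral.integral_eq_sub_of_hasDerivAt
      (f := fun v : ℝ => -((v : ℂ) + (t : ℂ) * I)⁻¹) (fun u hu => by
        simpa using ((hd _ (hne u hu)).comp (u : ℂ)
          ((hasDerivAt_id' (u : ℂ)).add_const ((t : ℂ) * I))).comp_ofReal) hi
  have hV : ∀ c : ℝ, (∀ y ∈ uIcc (-T) T, (c : ℂ) + (y : ℂ) * I ≠ 0) →
      IntervalIntegrable (fun y : ℝ => (((c : ℂ) + (y : ℂ) * I) ^ 2)⁻¹) volume (-T) T →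
      I * (∫ y in (-T)..T, (((c : ℂ) + (y : ℂ) * I) ^ 2)⁻¹) =
        -((c : ℂ) + (T : ℂ) * I)⁻¹ - -((c : ℂ) + ((-T : ℝ) : ℂ) * I)⁻¹ := fun c hne hi => by
    rw [← intervalIntegral.integral_const_mul]
    refine intervalIntegral.integral_eq_sub_of_hasDerivAt
      (f := fun v : ℝ => -((c : ℂ) + (v : ℂ) * I)⁻¹) (fun y hy => ?_) (hi.const_mul I)
    refine (((hd _ (hne y hy)).comp (y : ℂ) (((hasDerivAt_id' (y : ℂ)).mul_const I).const_add
      (c : ℂ))).comp_ofReal).congr_deriv ?_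
    ring
  rw [boxInt, hH _ (fun u hu => h _ (FA.ExplicitFormula.edge_bottom hu)) b1,
    hH _ (fun u hu => h _ (FA.ExplicitFormula.edge_top hu)) b2,
    hV _ (fun y hy => h _ (FA.ExplicitFormula.edge_right hy)) b3,
    hV _ (fun y hy => h _ (FA.ExplicitFormula.edge_left hy)) b4]
  ring

/-- **The residues.** -/
theorem boxInt_rawKer {y : ℝ} (hy : 0 < y) {T : ℝ} (hT : 0 < T)
    (hord : ∀ ρ, xiFun K ρ = 0 → |ρ.im| ≠ T) :
    boxInt (fun s => rawKer y s * negZeta K s) (-(1 / 2)) 2 T = 2 * π * I *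
      ((y : ℂ) ^ 2 / 2 - y - (∑ ρ ∈ (finite_stripZeros K T).toFinset,
        (xiMult K ρ : ℂ) * rawKer y ρ) - y * xiLog K 0 + y * regPart K 0 -
          unitCount K * ((y * Real.log y - y : ℝ) : ℂ)) := by
  obtain ⟨C, hC⟩ : ∃ C : Set ℂ, C = Icc (-(1 / 2) : ℝ) 2 ×ℂ Icc (-T) T := ⟨_, rfl⟩
  have hd := differentiable_xiFun K
  obtain ⟨Z, h, hh, he, hZK, hne, hcount⟩ := FA.Levinson.exists_compact_factor isOpen_univ
    (hC ▸ isCompact_Icc.reProdIm isCompact_Icc : IsCompact C) (subset_univ _)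
    hd.differentiableOn fun z _ => order_xi_ne_top K z
  have hh' : Differentiable ℂ h := fun z => hh.differentiableAt univ_mem
  have hmemC : ∀ s : ℂ, s ∈ C ↔ s.re ∈ Icc (-(1 / 2) : ℝ) 2 ∧ s.im ∈ Icc (-T) T := fun s => by
    rw [hC, mem_reProdIm]
  have hZ0 : ∀ ρ ∈ Z, xiFun K ρ = 0 := fun ρ hρ => by
    rw [he]
    refine mul_eq_zero_of_left ?_ _
    simp only [rootProd, Multiset.prod_eq_zero_iff, Multiset.mem_map]
    exact ⟨ρ, hρ, sub_self ρ⟩
  have hin : ∀ ρ ∈ Z, 0 < ρ.re ∧ ρ.re < 1 ∧ |ρ.im| < T := fun ρ hρ =>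
    ⟨(xi_zero_strip K (hZ0 ρ hρ)).1, (xi_zero_strip K (hZ0 ρ hρ)).2,
      lt_of_le_of_ne (abs_le.2 ((hmemC ρ).1 (hZK ρ hρ)).2) (hord ρ (hZ0 ρ hρ))⟩
  have hlog : ∀ s ∈ C, (∀ ρ ∈ Z, s ≠ ρ) →
      xiLog K s = (Z.map fun ρ => (s - ρ)⁻¹).sum + deriv h s / h s := fun s hs hroot => by
    have hd' : deriv (xiFun K) s =
        rootProd Z s * (Z.map fun ρ => (s - ρ)⁻¹).sum * h s + rootProd Z s * deriv h s := by
      rw [show xiFun K = fun w => rootProd Z w * h w from funext he]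
      exact ((hasDerivAt_rootProd hroot).mul (hh' s).hasDerivAt).deriv
    have n1 := rootProd_ne_zero hroot
    have n2 := hne s hs
    rw [xiLog, hd', he s]
    field_simp
  have h0C : (0 : ℂ) ∈ C := (hmemC 0).2 ⟨⟨by simp, by simp⟩, ⟨by simp; linarith, by simp; linarith⟩⟩
  have hx0 := hlog 0 h0C fun ρ hρ e => by
    have := (hin ρ hρ).1
    rw [← e] at this
    simp at this
  obtain ⟨U, hU⟩ : ∃ U : Set ℂ, U = {s | -1 < s.re} ∩ {s | h s ≠ 0} := ⟨_, rfl⟩
  have hUo : IsOpen U := hU ▸ (isOpen_lt continuous_const continuous_re).inter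
    (isOpen_ne_fun hh'.continuous continuous_const)
  have hUre : ∀ s ∈ U, -1 < s.re := fun s hs => by rw [hU] at hs; exact hs.1
  have hbox : ∀ s : ℂ, s.re ∈ Icc (-(1 / 2) : ℝ) 2 → s.im ∈ Icc (-T) T → s ∈ U :=
    fun s h1 h2 => by
    rw [hU]
    exact ⟨show -1 < s.re by linarith [h1.1], hne s ((hmemC s).2 ⟨h1, h2⟩)⟩
  have h0U : (0 : ℂ) ∈ U := hbox 0 ((hmemC 0).1 h0C).1 ((hmemC 0).1 h0C).2
  have hP : DifferentiableOn ℂ (powKer y) U := fun s hs =>
    (differentiableAt_powKer hy (hUre s hs)).differentiableWithinAt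
  obtain ⟨sInv, hsInv⟩ : ∃ c : ℂ, c = (Z.map fun ρ => ρ⁻¹).sum := ⟨_, rfl⟩
  obtain ⟨A, hA⟩ : ∃ A : ℂ → ℂ, A = fun s => powKer y s *
      (regPart K s + sInv - 1 - deriv h s / h s) - unitCount K * dslope (powKer y) 0 s := ⟨_, rfl⟩
  have hAd : DifferentiableOn ℂ A U := by
    rw [hA]
    refine DifferentiableOn.sub (hP.mul fun s hs => ?_)
      (((differentiableOn_dslope (hUo.mem_nhds h0U)).2 hP).const_mul _)
    have hs' := hs
    rw [hU] at hs'
    exact ((((differentiableAt_regPart K hs'.1).add_const _).sub_const _).sub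
      (((hh'.analyticAt s).deriv.differentiableAt).div (hh' s) hs'.2)).differentiableWithinAt
  have hA0 : A 0 = y * regPart K 0 - y * xiLog K 0 - y -
      unitCount K * ((y * Real.log y - y : ℝ) : ℂ) := by
    rw [hA]
    simp only [powKer_zero, dslope_same, deriv_powKer_zero hy]
    have : (Z.map fun ρ => (0 - ρ)⁻¹).sum = -sInv := by
      rw [hsInv, ← Multiset.sum_map_neg']
      simp [inv_neg]
    rw [hx0, this]
    ring
  have hedge : ∀ s ∈ boxEdges (-(1 / 2)) 2 T,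
      s.re ∈ Icc (-(1 / 2) : ℝ) 2 ∧ s.im ∈ Icc (-T) T := fun s hs => by
    obtain ⟨h1, h2, -⟩ := hs
    rw [uIcc_of_le (by norm_num)] at h1
    rw [uIcc_of_le (by linarith)] at h2
    exact ⟨h1, h2⟩
  have hzne : ∀ s ∈ boxEdges (-(1 / 2)) 2 T, ∀ ρ ∈ Z, s ≠ ρ := fun s hs ρ hρ => by
    obtain ⟨h1, h2, h3⟩ := hin ρ hρ
    exact interior_not_edge (by linarith) (by linarith) h3.ne hT.le hs
  have h0ne : ∀ s ∈ boxEdges (-(1 / 2)) 2 T, s ≠ 0 := fun s hs =>
    interior_not_edge (by simp) (by simp) (by simpa using hT.ne) hT.le hs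
  have h1ne : ∀ s ∈ boxEdges (-(1 / 2)) 2 T, s ≠ 1 := fun s hs =>
    interior_not_edge (by simp; norm_num) (by simp) (by simpa using hT.ne) hT.le hs
  have hcA : ∀ s ∈ boxEdges (-(1 / 2)) 2 T, ContinuousAt (fun w => A w / (w - 0)) s :=
    fun s hs => ((hAd.differentiableAt (hUo.mem_nhds (hbox s (hedge s hs).1
      (hedge s hs).2))).continuousAt).div (continuousAt_id.sub continuousAt_const)
        (sub_ne_zero.2 (h0ne s hs))
  have hcP : ∀ c : ℂ, ∀ s ∈ boxEdges (-(1 / 2)) 2 T, s ≠ c →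
      ContinuousAt (fun w => powKer y w / (w - c)) s := fun c s hs hne' =>
    ((hP.differentiableAt (hUo.mem_nhds (hbox s (hedge s hs).1 (hedge s hs).2))).continuousAt).div
      (continuousAt_id.sub continuousAt_const) (sub_ne_zero.2 hne')
  have hcsq : ∀ s ∈ boxEdges (-(1 / 2)) 2 T,
      ContinuousAt (fun w : ℂ => -(unitCount K * (y : ℂ)) * (w ^ 2)⁻¹) s := fun s hs =>
    continuousAt_const.mul (ContinuousAt.inv₀ (by fun_prop) (pow_ne_zero 2 (h0ne s hs)))
  have hPc : ∀ ρ ∈ Z, ∀ s ∈ boxEdges (-(1 / 2)) 2 T,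
      ContinuousAt (fun w => -ρ⁻¹ * (powKer y w / (w - ρ))) s := fun ρ hρ s hs =>
    continuousAt_const.mul (hcP ρ s hs (hzne s hs ρ hρ))
  obtain ⟨hZc, hZsum⟩ := boxInt_multiset_sum (f := fun ρ s => -ρ⁻¹ * (powKer y s / (s - ρ)))
    (a := (-(1 / 2) : ℝ)) (b := 2) (T := T) Z hPc
  have hPρ : ∀ ρ ∈ Z, boxInt (fun s => -ρ⁻¹ * (powKer y s / (s - ρ))) (-(1 / 2)) 2 T =
      -(2 * π * I) * rawKer y ρ := fun ρ hρ => by
    obtain ⟨h1, h2, h3⟩ := hin ρ hρ
    rw [boxInt_const_mul, boxInt_residue hUo hP hbox hT.le (by linarith) (by linarith) h3.ne,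
      if_pos h3, rawKer_eq]
    ring
  have hc1 : ∀ s ∈ boxEdges (-(1 / 2)) 2 T, ContinuousAt (fun w => powKer y w / (w - 1)) s :=
    fun s hs => hcP 1 s hs (h1ne s hs)
  rw [boxInt_congr (G := fun s => ((A s / (s - 0) + powKer y s / (s - 1)) +
      (Z.map fun ρ => -ρ⁻¹ * (powKer y s / (s - ρ))).sum) +
        -(unitCount K * (y : ℂ)) * (s ^ 2)⁻¹) fun s hs => ?_,
    boxInt_add (F := fun s => (A s / (s - 0) + powKer y s / (s - 1)) +
      (Z.map fun ρ => -ρ⁻¹ * (powKer y s / (s - ρ))).sum)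
      (fun s hs => ((hcA s hs).add (hc1 s hs)).add (hZc s hs)) hcsq,
    boxInt_add (F := fun s => A s / (s - 0) + powKer y s / (s - 1))
      (fun s hs => (hcA s hs).add (hc1 s hs)) hZc, boxInt_add hcA hc1,
    boxInt_const_mul, boxInt_inv_sq h0ne, mul_zero, add_zero,
    boxInt_residue hUo hAd hbox hT.le (by simp) (by simp) (by simpa using hT.ne),
    boxInt_residue hUo hP hbox hT.le (by simp; norm_num) (by simp) (by simpa using hT.ne),
    if_pos (by simpa using hT), if_pos (by simpa using hT), hZsum, Multiset.map_congr rfl hPρ,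
    Multiset.sum_map_mul_left, hA0, powKer_one, Finset.sum_multiset_map_count]
  · rw [show ∑ ρ ∈ Z.toFinset, Z.count ρ • rawKer y ρ =
        ∑ ρ ∈ (finite_stripZeros K T).toFinset, (xiMult K ρ : ℂ) * rawKer y ρ from ?_]
    · ring
    refine Finset.sum_congr ?_ fun ρ hρ => ?_
    · ext ρ
      rw [Multiset.mem_toFinset, Set.Finite.mem_toFinset, mem_stripZeros_iff]
      refine ⟨fun hρ => ⟨hZ0 ρ hρ, (hin ρ hρ).2.2.le⟩, fun ⟨h0, h3⟩ => ?_⟩
      obtain ⟨a1, a2⟩ := xi_zero_strip K h0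
      rw [← Multiset.one_le_count_iff_mem,
        ← hcount ρ ((hmemC ρ).2 ⟨⟨by linarith, by linarith⟩, abs_le.1 h3⟩)]
      exact Nat.one_le_iff_ne_zero.2 ((xiMult_ne_zero_iff K).2 h0)
    · rw [Set.Finite.mem_toFinset, mem_stripZeros_iff] at hρ
      obtain ⟨a1, a2⟩ := xi_zero_strip K hρ.1
      rw [nsmul_eq_mul, ← hcount ρ ((hmemC ρ).2 ⟨⟨by linarith, by linarith⟩, abs_le.1 hρ.2⟩)]
      rfl
  · obtain ⟨h1, h2⟩ := hedge s hs
    have n0 := h0ne s hs
    have n1 : s - 1 ≠ 0 := sub_ne_zero.2 (h1ne s hs)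
    have e1 : (Z.map fun ρ => -ρ⁻¹ * (powKer y s / (s - ρ))).sum =
        -(powKer y s / s) * (sInv + (Z.map fun ρ => (s - ρ)⁻¹).sum) := by
      rw [hsInv, ← Multiset.sum_map_add, ← Multiset.sum_map_mul_left]
      refine congrArg Multiset.sum (Multiset.map_congr rfl fun ρ hρ => ?_)
      have := sub_ne_zero.2 (hzne s hs ρ hρ)
      have : ρ ≠ 0 := fun h => by
        have h' := (hin ρ hρ).1
        rw [h] at h'
        simp at h'
      field_simp
      ring
    dsimp only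
    rw [e1, hA]
    simp only [dslope_of_ne _ n0, slope, vsub_eq_sub, smul_eq_mul, powKer_zero, rawKer_eq, negZeta,
      hlog s ((hmemC s).2 ⟨h1, h2⟩) (hzne s hs), sub_zero]
    field_simp
    ring

end FA.DedekindExplicit

end
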