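import Fermat.Agent.DedekindExplicit.Basic
import Fermat.Agent.GRHProgressions.ZeroSums

/-!
# Sums over the zeros of `ξ_K`, uniformly in the field

`∑_{|γ| ≤ N} m / (1 + |γ|) = O (height N (1 + log (N + 1)))`,
`∑_{|γ| ≥ N} m / (1 + |γ|)² = O (height N / (N + 1))`, and a height at distance `1 / O (height T)`
from all of them in each `[T, T + 1]`.
-/

set_option autoImplicit false
set_option linter.style.haveILetI false

noncomputable section

universe u

open NumberField InfinitePlace Module Complex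
open FA.HeckeBS FA.HeckeFE FA.DedekindZF FA.DedekindZeroCount FA.DedekindHadamard
open scoped Real Classical

namespace FA.DedekindExplicit

variable (K : Type u) [Field K] [NumberField K]

theorem height_abs (t : ℝ) : height K |t| = height K t := by
  rw [height, height, abs_abs]

theorem height_mono {s t : ℝ} (h : |s| ≤ |t|) : height K s ≤ height K t := by
  rw [height, height]
  gcongr

/-- `m / (1 + (|γ| - k)²)`. -/
def foldTerm (k : ℕ) (ρ : ℂ) : ℝ := (xiMult K ρ : ℝ) / (1 + (|ρ.im| - k) ^ 2)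

theorem foldTerm_nonneg (k : ℕ) (ρ : ℂ) : 0 ≤ foldTerm K k ρ := by
  rw [foldTerm]
  positivity

theorem mult_le_foldTerm (ρ : ℂ) : (xiMult K ρ : ℝ) ≤ 2 * foldTerm K ⌊|ρ.im|⌋₊ ρ := by
  have h1 := Nat.floor_le (abs_nonneg ρ.im)
  have h2 := Nat.lt_floor_add_one |ρ.im|
  rw [foldTerm, mul_div_assoc', le_div_iff₀ (by positivity), mul_comm (2 : ℝ)]
  refine mul_le_mul_of_nonneg_left ?_ (Nat.cast_nonneg _)
  nlinarith

theorem exists_fold_weight : ∃ C, 0 ≤ C ∧ ∀ (K : Type u) [Field K] [NumberField K] (k : ℕ)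
    (S : Finset ℂ), ∑ ρ ∈ S, foldTerm K k ρ ≤ C * height K k := by
  obtain ⟨C, hC, h⟩ := exists_window_weight.{u}
  refine ⟨2 * C, by positivity, fun K _ _ k S => ?_⟩
  obtain ⟨hs1, ht1⟩ := h K (k : ℝ)
  obtain ⟨hs2, ht2⟩ := h K (-(k : ℝ))
  rw [show height K (-(k : ℝ)) = height K k by rw [height, height, abs_neg]] at ht2
  refine (Finset.sum_le_sum (g := fun ρ => windowTerm K k ρ + windowTerm K (-(k : ℝ)) ρ)
    fun ρ _ => ?_).trans ?_
  · have n1 := windowTerm_nonneg K (k : ℝ) ρ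
    have n2 := windowTerm_nonneg K (-(k : ℝ)) ρ
    rw [foldTerm]
    rcases le_total 0 ρ.im with hi | hi
    · rw [abs_of_nonneg hi, ← windowTerm]
      linarith
    · rw [abs_of_nonpos hi, show (-ρ.im - (k : ℝ)) ^ 2 = (ρ.im - -(k : ℝ)) ^ 2 by ring,
        ← windowTerm]
      linarith
  · rw [Finset.sum_add_distrib]
    linarith [hs1.sum_le_tsum S fun ρ _ => windowTerm_nonneg K _ ρ,
      hs2.sum_le_tsum S fun ρ _ => windowTerm_nonneg K _ ρ]

/-- **The zeros up to `N`.** -/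
theorem exists_head_sum : ∃ C, 0 ≤ C ∧ ∀ (K : Type u) [Field K] [NumberField K] (N : ℕ)
    (S : Finset ℂ), (∀ ρ ∈ S, |ρ.im| ≤ N) →
      ∑ ρ ∈ S, (xiMult K ρ : ℝ) / (1 + |ρ.im|) ≤
        C * height K N * (1 + Real.log ((N : ℝ) + 1)) := by
  obtain ⟨C, hC, h⟩ := exists_fold_weight.{u}
  refine ⟨2 * C, by positivity, fun K _ _ N S hS => ?_⟩
  obtain ⟨c, hc⟩ : ∃ c : ℕ → ℂ → ℝ, c = fun (k : ℕ) ρ => 2 / (k + 1 : ℝ) * foldTerm K k ρ :=
    ⟨_, rfl⟩
  have hc0 : ∀ (k : ℕ) (ρ : ℂ), 0 ≤ c k ρ := fun k ρ => by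
    rw [hc]
    exact mul_nonneg (by positivity) (foldTerm_nonneg K k ρ)
  refine (Finset.sum_le_sum (g := fun ρ => ∑ k ∈ Finset.range (N + 1), c k ρ)
    fun ρ hρ => ?_).trans ?_
  · refine le_trans ?_ (Finset.single_le_sum (fun k _ => hc0 k ρ) (a := ⌊|ρ.im|⌋₊)
      (Finset.mem_range.2 (Nat.lt_succ_of_le (Nat.floor_le_of_le (hS ρ hρ)))))
    have h1 := Nat.floor_le (abs_nonneg ρ.im)
    have h2 := mult_le_foldTerm K ρ
    have h3 := foldTerm_nonneg K ⌊|ρ.im|⌋₊ ρ
    rw [hc]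
    simp only
    rw [div_mul_eq_mul_div]
    exact div_le_div₀ (mul_nonneg zero_le_two h3) h2 (by positivity) (by linarith)
  rw [Finset.sum_comm]
  have hH := one_le_height K (N : ℝ)
  refine (Finset.sum_le_sum (g := fun k : ℕ => 2 * C * height K N * (((k + 1 : ℕ) : ℝ))⁻¹)
    fun k hk => ?_).trans ?_
  · rw [hc, ← Finset.mul_sum]
    refine (mul_le_mul_of_nonneg_left (h K k S) (by positivity)).trans ?_
    have hl : height K k ≤ height K N := height_mono K (by
      rw [Nat.abs_cast, Nat.abs_cast]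
      exact Nat.cast_le.2 (Nat.lt_succ_iff.1 (Finset.mem_range.1 hk)))
    push_cast
    rw [div_eq_mul_inv]
    nlinarith [mul_le_mul_of_nonneg_left hl (mul_nonneg hC
      (inv_nonneg.2 (show (0 : ℝ) ≤ k + 1 by positivity)))]
  · rw [← Finset.mul_sum]
    have hh : ∑ k ∈ Finset.range (N + 1), (((k + 1 : ℕ) : ℝ))⁻¹ ≤ 1 + Real.log (N + 1) := by
      have := harmonic_le_one_add_log (N + 1)
      simp only [harmonic] at this
      push_cast at this
      simpa using this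
    exact mul_le_mul_of_nonneg_left hh (mul_nonneg (by positivity) (by linarith))

theorem height_le_ratio {N k : ℕ} (h : N ≤ k) :
    height K k ≤ 6 * height K N * (√((k : ℝ) + 1) / √((N : ℝ) + 1)) := by
  have hk : (N : ℝ) ≤ k := Nat.cast_le.2 h
  obtain ⟨r, hr⟩ : ∃ r : ℝ, r = ((k : ℝ) + 3) / ((N : ℝ) + 3) := ⟨_, rfl⟩
  have hr1 : 1 ≤ r := by rw [hr, le_div_iff₀ (by positivity)]; linarith
  have hs1 : 1 ≤ √r := Real.one_le_sqrt.2 hr1
  have e : height K k = height K N + finrank ℚ K * Real.log r := by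
    rw [height, height, Nat.abs_cast, Nat.abs_cast, hr,
      Real.log_div (by positivity) (by positivity)]
    ring
  have hl : Real.log r ≤ 2 * √r := by
    have h' := Real.log_le_sub_one_of_pos (Real.sqrt_pos.2 (show 0 < r by linarith))
    rw [Real.log_sqrt (by linarith)] at h'
    linarith
  have hn := finrank_le_height K (N : ℝ)
  have h1 := one_le_height K (N : ℝ)
  have h3 : height K k ≤ 3 * height K N * √r := by
    have := mul_le_mul hn hl (Real.log_nonneg hr1) (by linarith)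
    have := le_mul_of_one_le_right (show 0 ≤ height K N by linarith) hs1
    rw [e]
    linarith
  refine h3.trans ?_
  have h4 : √((k : ℝ) + 3) ≤ 2 * √((k : ℝ) + 1) := by
    refine (Real.sqrt_le_sqrt (show (k : ℝ) + 3 ≤ 2 ^ 2 * ((k : ℝ) + 1) by
      linarith [(Nat.cast_nonneg k : (0 : ℝ) ≤ k)])).trans (le_of_eq ?_)
    rw [Real.sqrt_mul (by norm_num), Real.sqrt_sq (by norm_num)]
  have hsr : √r ≤ 2 * (√((k : ℝ) + 1) / √((N : ℝ) + 1)) := by
    rw [hr, Real.sqrt_div (by positivity), mul_div_assoc']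
    exact div_le_div₀ (by positivity) h4 (by positivity) (Real.sqrt_le_sqrt (by linarith))
  nlinarith [mul_le_mul_of_nonneg_left hsr (show 0 ≤ 3 * height K N by linarith)]

/-- **The zeros beyond `N`.** -/
theorem exists_tail_sum : ∃ C, 0 ≤ C ∧ ∀ (K : Type u) [Field K] [NumberField K] (N : ℕ)
    (S : Finset ℂ), (∀ ρ ∈ S, (N : ℝ) ≤ |ρ.im|) →
      ∑ ρ ∈ S, (xiMult K ρ : ℝ) / (1 + |ρ.im|) ^ 2 ≤ C * height K N / ((N : ℝ) + 1) := by
  obtain ⟨C, hC, h⟩ := exists_fold_weight.{u}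
  refine ⟨48 * C, by positivity, fun K _ _ N S hS => ?_⟩
  obtain ⟨M, hM⟩ : ∃ M, M = max N ((S.sup fun ρ => ⌊|ρ.im|⌋₊) + 1) := ⟨_, rfl⟩
  obtain ⟨c, hc⟩ : ∃ c : ℕ → ℂ → ℝ, c = fun (k : ℕ) ρ => 2 / (k + 1 : ℝ) ^ 2 * foldTerm K k ρ :=
    ⟨_, rfl⟩
  have hc0 : ∀ (k : ℕ) (ρ : ℂ), 0 ≤ c k ρ := fun k ρ => by
    rw [hc]
    exact mul_nonneg (by positivity) (foldTerm_nonneg K k ρ)
  refine (Finset.sum_le_sum (g := fun ρ => ∑ k ∈ Finset.Ico N M, c k ρ) fun ρ hρ => ?_).trans ?_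
  · refine le_trans ?_ (Finset.single_le_sum (fun k _ => hc0 k ρ) (a := ⌊|ρ.im|⌋₊)
      (Finset.mem_Ico.2 ⟨Nat.le_floor (hS ρ hρ), hM ▸ lt_of_lt_of_le
        (Nat.lt_succ_of_le (Finset.le_sup (f := fun ρ : ℂ => ⌊|ρ.im|⌋₊) hρ))
        (le_max_right _ _)⟩))
    have h1 := Nat.floor_le (abs_nonneg ρ.im)
    have h2 := mult_le_foldTerm K ρ
    have h3 := foldTerm_nonneg K ⌊|ρ.im|⌋₊ ρ
    rw [hc]
    simp only
    rw [div_mul_eq_mul_div]
    exact div_le_div₀ (mul_nonneg zero_le_two h3) h2 (by positivity)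
      (pow_le_pow_left₀ (by positivity) (by linarith) 2)
  rw [Finset.sum_comm]
  obtain ⟨g, hg⟩ : ∃ g : ℕ → ℝ, g = fun (k : ℕ) => 1 / √((k : ℝ) + 1) := ⟨_, rfl⟩
  have q1 := one_le_height K (N : ℝ)
  obtain ⟨B, hB⟩ : ∃ B, B = 48 * C * height K N / √((N : ℝ) + 1) := ⟨_, rfl⟩
  have hB0 : 0 ≤ B := hB ▸ div_nonneg (mul_nonneg (by positivity) (by linarith)) (by positivity)
  refine (Finset.sum_le_sum (g := fun k => B * (g k - g (k + 1))) fun k hk => ?_).trans ?_
  · rw [hc, ← Finset.mul_sum]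
    refine (mul_le_mul_of_nonneg_left ((h K k S).trans (mul_le_mul_of_nonneg_left
      (height_le_ratio K (Finset.mem_Ico.1 hk).1) hC)) (by positivity)).trans ?_
    have e : g k - g (k + 1) = 1 / √((k : ℝ) + 1) - 1 / √((k : ℝ) + 2) := by
      rw [hg]
      push_cast
      ring_nf
    rw [e, hB]
    have := mul_le_mul_of_nonneg_left (FA.GRHProgressions.inv_pow_le_step k)
      (show 0 ≤ 12 * C * height K N / √((N : ℝ) + 1) from
        div_nonneg (mul_nonneg (by positivity) (by linarith)) (by positivity))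
    refine le_trans (le_of_eq (by ring)) (this.trans (le_of_eq (by ring)))
  · rw [← Finset.mul_sum]
    have htel : ∀ M, N ≤ M → ∑ k ∈ Finset.Ico N M, (g k - g (k + 1)) = g N - g M := by
      intro M hM
      induction M, hM using Nat.le_induction with
      | base => simp
      | succ m hm ih => rw [Finset.sum_Ico_succ_top hm, ih]; ring
    rw [htel M (hM ▸ le_max_left _ _)]
    have hgM : 0 ≤ g M := hg ▸ by positivity
    calc B * (g N - g M) ≤ B * g N := mul_le_mul_of_nonneg_left (by linarith) hB0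
      _ = _ := by
          rw [hB, hg]
          simp only
          rw [div_mul_div_comm, mul_one, Real.mul_self_sqrt (by positivity)]

theorem summable_sparse :
    Summable fun ρ : ℂ => (xiMult K ρ : ℝ) / (1 + |ρ.im|) ^ 2 := by
  obtain ⟨C, -, h⟩ := exists_tail_sum.{u}
  exact summable_of_sum_le (fun ρ => by positivity) fun S =>
    h K 0 S fun ρ _ => by rw [Nat.cast_zero]; exact abs_nonneg _

theorem one_le_xiMult {ρ : ℂ} (h : xiFun K ρ = 0) : (1 : ℝ) ≤ xiMult K ρ :=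
  Nat.one_le_cast.2 (Nat.one_le_iff_ne_zero.2 ((xiMult_ne_zero_iff K).2 h))

/-- **A height away from the zeros.** -/
theorem exists_good_height : ∃ C, 0 < C ∧ ∀ (K : Type u) [Field K] [NumberField K] (T : ℝ),
    0 ≤ T → ∃ t δ, T ≤ t ∧ t ≤ T + 1 ∧ 0 < δ ∧ δ ≤ 1 ∧ 1 / δ ≤ C * height K T ∧
      ∀ ρ, xiFun K ρ = 0 → δ ≤ |(|ρ.im| - t)| := by
  obtain ⟨C, hC, h⟩ := exists_fold_weight.{u}
  refine ⟨30 * C + 6, by positivity, fun K _ _ T hT => ?_⟩
  obtain ⟨Z, hZ⟩ : ∃ Z : Finset ℂ, Z = ((finite_stripZeros K (T + 2)).toFinset).filter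
      fun ρ => T - 1 < |ρ.im| := ⟨_, rfl⟩
  obtain ⟨A, hA⟩ : ∃ A : Finset ℝ, A = Z.image fun ρ => |ρ.im| := ⟨_, rfl⟩
  have hcard : (A.card : ℝ) ≤ 10 * C * height K T := by
    have e1 : (A.card : ℝ) ≤ ∑ ρ ∈ Z, (1 : ℝ) := by
      rw [Finset.sum_const, nsmul_eq_mul, mul_one, hA]
      exact Nat.cast_le.2 Finset.card_image_le
    refine e1.trans ((Finset.sum_le_sum (g := fun ρ => 10 * foldTerm K ⌊T⌋₊ ρ)
      fun ρ hρ => ?_).trans ?_)
    · rw [hZ, Finset.mem_filter, Set.Finite.mem_toFinset, mem_stripZeros_iff] at hρ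
      obtain ⟨⟨h0, h1⟩, h2⟩ := hρ
      have a1 := Nat.floor_le hT
      have a2 := Nat.lt_floor_add_one T
      have m1 := one_le_xiMult K h0
      rw [foldTerm, mul_div_assoc', le_div_iff₀ (by positivity)]
      nlinarith
    · rw [← Finset.mul_sum]
      have := height_mono K (s := (⌊T⌋₊ : ℝ)) (t := T) (by
        rw [Nat.abs_cast, abs_of_nonneg hT]
        exact Nat.floor_le hT)
      nlinarith [h K ⌊T⌋₊ Z, mul_le_mul_of_nonneg_left this hC]
  have hH := one_le_height K T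
  obtain ⟨d, hd⟩ : ∃ d : ℝ, d = 1 / ((A.card : ℝ) + 2) := ⟨_, rfl⟩
  have hd0 : 0 < d := by rw [hd]; positivity
  obtain ⟨j, hj, hfree⟩ : ∃ j ∈ Finset.range (A.card + 1),
      ∀ a ∈ A, d / 3 ≤ |a - (T + ((j : ℝ) + 1) * d)| := by
    by_contra hno
    push Not at hno
    choose! f hf hclose using hno
    have hinj : Set.InjOn f (Finset.range (A.card + 1) : Set ℕ) := by
      intro i hi j hj hij
      have h1 := hclose i hi
      have h2 := hclose j hj
      rw [hij] at h1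
      rw [abs_lt] at h1 h2
      by_contra hne
      rcases Nat.lt_or_gt_of_ne hne with hlt | hlt
      · have h3 : ((i : ℝ) + 1) ≤ j := by exact_mod_cast hlt
        nlinarith
      · have h3 : ((j : ℝ) + 1) ≤ i := by exact_mod_cast hlt
        nlinarith
    have := Finset.card_le_card_of_injOn f (fun i hi => hf i hi) hinj
    rw [Finset.card_range] at this
    omega
  have hjd : ((j : ℝ) + 2) * d ≤ 1 := by
    rw [hd, mul_one_div, div_le_one (by positivity)]
    have : (j : ℝ) ≤ A.card := by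
      exact_mod_cast Nat.lt_succ_iff.1 (Finset.mem_range.1 hj)
    linarith
  have hj0 : 0 ≤ (j : ℝ) * d := by positivity
  refine ⟨T + ((j : ℝ) + 1) * d, d / 3, by nlinarith, by nlinarith, by positivity, by nlinarith,
    ?_, fun ρ hρ => ?_⟩
  · rw [hd, one_div_div, div_div_eq_mul_div, div_one]
    nlinarith
  · by_cases hm : T - 1 < |ρ.im| ∧ |ρ.im| ≤ T + 2
    · refine hfree _ ?_
      rw [hA, hZ]
      exact Finset.mem_image.2 ⟨ρ, Finset.mem_filter.2
        ⟨(Set.Finite.mem_toFinset _).2 ((mem_stripZeros_iff K).2 ⟨hρ, hm.2⟩), hm.1⟩, rfl⟩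
    · rcases le_or_gt |ρ.im| (T - 1) with h1 | h1
      · rw [abs_of_nonpos (by nlinarith)]
        nlinarith
      · have h2 : T + 2 < |ρ.im| := lt_of_not_ge fun h => hm ⟨h1, h⟩
        rw [abs_of_nonneg (by nlinarith)]
        nlinarith

end FA.DedekindExplicit

end
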